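import Mathlib
import Fermat.Agent.LT.T6.SpecArch
import Fermat.Agent.LT.T7.H305.MatchSpec

/-!
# Row LT, tower T7, node T7.L2Q.1.H1 `GlobQC732` (registry row 2464, owner helper298):
# THE MATCHING THEOREM OVER `ℚ` -- FIRST CUT, Spec

OFF-MAIN.  Definitions and frozen Props only (the proved top is `MatchQTop.lean`, the glue to
`H732.GlobQC732` is `MatchQGlue.lean`).  No hole, nothing assumed.  ADDITIVE (new names only, all
suffixed `298`, namespace `Fermat.Agent.LT.T7.MQ298`).  MIRROR of the first cut of the cubic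
matching theorem, `T7/H305/MatchSpec.lean` (helper305@61757801e, sha256 541c6ac7), which is
imported AS IT IS: the vocabulary (`pure305`, `tA305`, `IsCutOn305`, `cutInt305`, `torVol305`,
`IsAdeleBase305`, `IsTorLinked305`, `IsOver305`, `IsLevelAt305`, `UnramOut305`) and the
ONE-FIELD leaves `UnfoldC305 F`, `TorCommC305 ℚ`, `TorCommC305 F`, `TwistRepC305 F`,
`TorHaarC305 ℚ` and the leaf `EllRegC305 ℚ F` are REUSED VERBATIM (they carry no hypothesis on
the infinite places and none on the degree).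

    globMatchQ_of298 : IotaQC298 F → UnfoldGC298 ℚ → UnfoldC305 F → TorCommC305 ℚ →
        TorCommC305 F → TwistRepC305 F → EllRegC305 ℚ F → TorHaarC305 ℚ → TorMeasQC298 F →
        TorCompQC298 F → CutIntQC298 F → GlobMatchQC298 F

## Setting (quadratic step)

`K = ℚ`, `K' = F` imaginary quadratic (`F = ℚ(√-3)` in the application), `l = 2`, `σ` = the
conjugation of `F`.  The `ℚ`-algebra structure of `F` is the canonical one.  The real place of
`ℚ` does NOT split: the archimedean component downstairs is a function on `GL₂(ℝ)`, and it is the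
SUM `F0 + F1` of a test function of weight `0` and a test function of weight `-1`
(`T6.IsArchTestR`, `L2Q.QWt.wt w1 = -1`), matched with the bi-`U(2)`-invariant component `Φ w`
upstairs in the sense of `T6.IsArchMatch μr μc` (`T6/SpecArch.lean`, helper22; existence:
`T6.ArchMatchC`, closed sub-tower T6inf).

## What is NEW with respect to the cubic cut

* `reHomQ298`, `reGLQ298` : the component at the real place of `ℚ`, in `ℝ` / `GL₂(ℝ)` (the same
  term as `T3.R.reHom ℚ Rat.infinitePlace Rat.isReal_infinitePlace` of station T3.18R).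
* `pureQ298 T f₀ Fr` : the pure tensor over `ℚ` with real archimedean component `Fr`.
* `LocHypQ298` : `LocHyp305` with the archimedean clause replaced by `T6.IsArchMatch`.
* **`UnfoldGC298 K`** (LEAF, ONE field): `UnfoldC305 K` for every CONTINUOUS function with
  COMPACT SUPPORT (no `K_∞`-type, no level): the sum `f w0 + f w1` downstairs is not a test
  function of one type.  The proofs of `UnfoldC305` on the branches use the continuity of `φ`
  only (helper627 `T7/H627/Unfold305.lean`): the same proof.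
* **`IotaQC298 F`** (LEAF): `IotaC305` for `F/ℚ` (`ℝ → ℂ` at the infinite place;
  `‖ι x‖_ℂ² = (|x|_ℝ)²`).
* **`TorMeasQC298 F`** (LEAF): `TorMeasC305` for `F/ℚ` (the proofs on the branches do not use the
  hypotheses `IsCycExt`, `TotCplx`: helper787, helper233).
* **`TorCompQC298 F`** (LEAF): `TorCompC305` for `F/ℚ`: `vol(γ) = 2 · vol(δ)` (the ray
  generators: `t² = 2` downstairs at the real place, `t'⁴ = 2` upstairs, `ι(r) = r'²`).
* **`CutIntQC298 F`** (NODE, the core): `CutIntC305` for `F/ℚ` with the archimedean matching.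

FALSITY CHECKS (helper298).  (1) Periodisation: the sum over the ray upstairs runs over
`δ r'^j`, `N(δ r'^j) = γ ι(r)^j`, downstairs over `γ r^j`: term by term the archimedean factors
are matched by `T6.IsArchMatch` applied to `(γ r^j)_∞` and `(δ r'^j)_∞`.  (2) A global elliptic
`γ` which is not a norm fails to be a local norm at a FINITE place with one place over it or at
the REAL place (negative eigenvalues); at the real place the second clause of `T6.IsArchMatch`
gives the vanishing.  (3) Constants: `κ = c'_G / c_G` as in the cubic cut (the local Haar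
measures at infinity are `μr`, `μc`; the torus measures are linked); the factor `2` of the rays is
the factor of `TorCompQC298`.  (4) `UnramOut305 T₀` forces the ramified prime (`3`) into `T₀`.
-/

set_option autoImplicit false

open AutomorphicForm IsDedekindDomain NumberField MeasureTheory
open scoped ComplexConjugate

noncomputable section

namespace Fermat.Agent.LT.T7.MQ298

open Fermat.Agent.LT.H556 Fermat.Agent.LT.H556.A0 Fermat.Agent.LT.T7 Fermat.Agent.LT.T7.H305

attribute [local instance] Fermat.Agent.LT.T5.instMeasurableSpaceG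

/-! ## 1. The real place of `ℚ`, pure tensors over `ℚ` -/

/-- The component at the real place of `ℚ`, in `ℝ`. -/
def reHomQ298 : Adl ℚ →+* ℝ :=
  (InfinitePlace.Completion.extensionEmbeddingOfIsReal Rat.isReal_infinitePlace).comp
    ((Pi.evalRingHom (fun v : InfinitePlace ℚ => v.Completion) Rat.infinitePlace).comp
      (RingHom.fst (InfiniteAdeleRing ℚ) (FiniteAdeleRing (𝓞 ℚ) ℚ)))

/-- The component of `g ∈ GL₂(𝔸_ℚ)` at the real place, in `GL₂(ℝ)`. -/
def reGLQ298 : G ℚ →* GL (Fin 2) ℝ :=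
  Matrix.GeneralLinearGroup.map reHomQ298

open Classical in
/-- THE PURE TENSOR over `ℚ`: `⊗_{v ∈ T} f₀_v ⊗ Fr ⊗ ⊗_{v ∉ T} 1_{GL₂(ℤ_v)}`, `Fr` a function on
`GL₂(ℝ)`. -/
def pureQ298 (T : Finset (HeightOneSpectrum (𝓞 ℚ)))
    (f₀ : ∀ v : HeightOneSpectrum (𝓞 ℚ), GL (Fin 2) (v.adicCompletion ℚ) → ℂ)
    (Fr : GL (Fin 2) ℝ → ℂ) (h : G ℚ) : ℂ :=
  if OutT305 T h then (∏ v ∈ T, f₀ v (finGL305 v h)) * Fr (reGLQ298 h) else 0

/-! ## 2. The leaves which are new -/

section OneField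

variable (K : Type) [Field K] [NumberField K]

/-- **LEAF Q2.1 = UNFOLD, general form (ONE field; Fubini).**  The identity of `H305.UnfoldC305`
for every CONTINUOUS function `φ` with COMPACT SUPPORT:
`∫_{F_δ} φ♭(x⁻¹ δ σ(x)) dμ(x) = μT(T(K) \ T_𝔸 ∩ slab) · ∫ φ♭(y⁻¹ δ σ(y)) β(y) dμ(y)`.
Proof: the proof of `UnfoldC305` (Tonelli on `T_𝔸 × G(𝔸)`, two fundamental domains of a
countable group have the same measure); it uses the continuity of `φ` only. -/
def UnfoldGC298 : Prop :=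
  ∀ R : Frame5 K, IsFrame5 R →
    ∀ (s : T5.AdelicAut K) (l : ℕ) (k : Subfield K) (𝔫 : Ideal (𝓞 K)),
      T5.IsCyclicOfDegree s l k → T5.AutPreserves s 𝔫 R.μ R.r →
    ∀ δ : GL (Fin 2) K, T5.IsEllRegOver k (s.normUpTo l δ) →
    ∀ φ : G K → ℂ, Continuous φ → HasCompactSupport φ →
    ∀ Fδ : Set (G K), T5.IsTwDomain s δ Fδ →
    (∀ x ∈ tA305 s δ, ∀ y ∈ tA305 s δ, x * y = y * x) →
    ∀ μT : @Measure (tA305 s δ) (borel _), @Measure.IsHaarMeasure _ _ _ (borel _) μT →
    ∀ β : G K → ℝ, IsCutOn305 s δ μT β {x | T5.twTerm R.r s φ δ x ≠ 0} →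
      ∫ x in Fδ, T5.twTerm R.r s φ δ x ∂(R.μ)
        = (((torVol305 s δ μT Fδ).toReal : ℝ) : ℂ) * cutInt305 R.r s φ δ R.μ β

end OneField

section TwoFields

variable (F : Type) [Field F] [NumberField F]

/-- **LEAF Q2.4 = IOTA over `ℚ`** (the base change of adeles `𝔸_ℚ → 𝔸_F` exists).  Mirror of
`H305.IotaC305` (there: `K` totally complex).  Proof: the map `A2.H743.bcAdele743` of helper743
as in the cuts of `IotaC305` (helper816, helper965, helper872, ...); at the infinite place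
`ℝ → ℂ`, `‖ι x‖_ℂ² = (|x|_ℝ)²` (`w.mult = 2` upstairs, `1` downstairs), so
`‖ι x‖_F = ‖x‖_ℚ²`. -/
def IotaQC298 : Prop :=
  IsImagQuad F →
    ∀ D : CompData ℚ F, IsCompData D → IsCycExt ℚ F D.l → D.l = 2 →
      ∃ ι : Adl ℚ →+* Adl F, IsAdeleBase305 D.s D.l ι

/-- **LEAF Q2.5b = TOR-MEAS over `ℚ`** (linked Haar measures).  Mirror of `H305.TorMeasC305`;
the proofs of helper787 (`T7/H787/TorMeas.lean`) and helper233 (`T7/H233/TorMeas.lean`) do not
use the hypotheses `IsCycExt`, `TotCplx`: the same proof. -/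
def TorMeasQC298 : Prop :=
  IsImagQuad F →
    ∀ D : CompData ℚ F, IsCompData D → IsCycExt ℚ F D.l → D.l = 2 →
    ∀ ι : Adl ℚ →+* Adl F, IsAdeleBase305 D.s D.l ι →
    ∀ (δ : GL (Fin 2) F) (γ : GL (Fin 2) ℚ), T6.IsEll γ →
      D.s.normUpTo D.l δ = Matrix.GeneralLinearGroup.map (algebraMap ℚ F) γ →
      ∃ (μT : @Measure (tA305 (T5.AdelicAut.id ℚ) γ) (borel _))
        (μT' : @Measure (tA305 D.s δ) (borel _)),
        @Measure.IsHaarMeasure _ _ _ (borel _) μT ∧ @Measure.IsHaarMeasure _ _ _ (borel _) μT' ∧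
          IsTorLinked305 ι D.s δ γ μT μT'

/-- **LEAF Q2.6 = TOR-COMP over `ℚ`** (the volumes).  Mirror of `H305.TorCompC305`: for linked
measures and fundamental domains `Fγ` (downstairs), `Fδ` (upstairs), `vol(γ) = 2 · vol(δ)` in
`[0, ∞]`.  Proof as in the cubic case (helper119 `T7/H119/TorComp.lean`); the ray generator
downstairs is the positive scalar `t` at the REAL place with `t² = 2`, upstairs `t'` with
`t'⁴ = 2`; `‖det ι(x)‖_F = ‖det x‖_ℚ²`. -/
def TorCompQC298 : Prop :=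
  IsImagQuad F →
    ∀ D : CompData ℚ F, IsCompData D → IsCycExt ℚ F D.l → D.l = 2 →
    ∀ ι : Adl ℚ →+* Adl F, IsAdeleBase305 D.s D.l ι →
    ∀ (δ : GL (Fin 2) F) (γ : GL (Fin 2) ℚ), T6.IsEll γ →
      D.s.normUpTo D.l δ = Matrix.GeneralLinearGroup.map (algebraMap ℚ F) γ →
    ∀ (Fδ : Set (G F)) (Fγ : Set (G ℚ)), T5.IsTwDomain D.s δ Fδ →
      T5.IsTwDomain (T5.AdelicAut.id ℚ) γ Fγ →
    ∀ (μT : @Measure (tA305 (T5.AdelicAut.id ℚ) γ) (borel _))
      (μT' : @Measure (tA305 D.s δ) (borel _)),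
      @Measure.IsHaarMeasure _ _ _ (borel _) μT → @Measure.IsHaarMeasure _ _ _ (borel _) μT' →
      IsTorLinked305 ι D.s δ γ μT μT' →
      torVol305 (T5.AdelicAut.id ℚ) γ μT Fγ = (D.l : ENNReal) * torVol305 D.s δ μT' Fδ

/-! ## 3. Local matching over `ℚ`, the core node, the top node -/

variable {F}

/-- **THE LOCAL HYPOTHESES over `ℚ`** (local matching in the form of T6).  The finite clauses are
those of `H305.LocHyp305` (for `K = ℚ`, `K' = F`; the ramified place is a place with ONE place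
over it).  Archimedean clauses: `Φ w` is a bi-`U(2)`-invariant test function on `GL₂(ℂ)`, `F0` a
test function of weight `0` and `F1` a test function of weight `-1` on `GL₂(ℝ)`, and `F0 + F1`
is matched with `Φ w` for the Haar measures `μr`, `μc` (`T6.IsArchMatch`). -/
structure LocHypQ298 (D : CompData ℚ F) (μr : @Measure (GL (Fin 2) ℝ) (borel _))
    (μc : @Measure (GL (Fin 2) ℂ) (borel _))
    (T : Finset (HeightOneSpectrum (𝓞 ℚ)))
    (n : HeightOneSpectrum (𝓞 F) → ℕ) (m : HeightOneSpectrum (𝓞 ℚ) → ℕ)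
    (φ₀ : ∀ w : HeightOneSpectrum (𝓞 F), GL (Fin 2) (w.adicCompletion F) → ℂ)
    (Φ : InfinitePlace F → GL (Fin 2) ℂ → ℂ)
    (f₀ : ∀ v : HeightOneSpectrum (𝓞 ℚ), GL (Fin 2) (v.adicCompletion ℚ) → ℂ)
    (F0 F1 : GL (Fin 2) ℝ → ℂ) : Prop where
  inv_up : ∀ v ∈ T, ∀ w : HeightOneSpectrum (𝓞 F), PlaceOver ℚ F v w →
    T6.IsBiInv (T6.InU (n w)) (φ₀ w) ∧ T6.HasFinSupp (T6.InU (n w)) (φ₀ w)
  inv_down : ∀ v ∈ T, T6.IsBiInv (T6.InU (m v)) (f₀ v) ∧ T6.HasFinSupp (T6.InU (m v)) (f₀ v)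
  arch_up : ∀ w : InfinitePlace F, T6.IsArchTestC (Φ w)
  arch_down0 : T6.IsArchTestR 0 F0
  arch_down1 : T6.IsArchTestR (-1) F1
  inert : ∀ v ∈ T, ∀ w : HeightOneSpectrum (𝓞 F), PlaceOver ℚ F v w →
    (∀ w' : HeightOneSpectrum (𝓞 F), PlaceOver ℚ F v w' → w' = w) →
    ∀ (e : ℕ) (i : v.adicCompletion ℚ →+* w.adicCompletion F)
      (sw : w.adicCompletion F ≃+* w.adicCompletion F),
      (∀ x : ℚ, i (algebraMap ℚ (v.adicCompletion ℚ) x)
        = algebraMap F (w.adicCompletion F) (algebraMap ℚ F x)) →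
      (∀ y : F, sw (algebraMap F (w.adicCompletion F) y)
        = algebraMap F (w.adicCompletion F) (D.s.σ y)) →
      T6.IsLocalExt (v.adicCompletion ℚ) (w.adicCompletion F) D.l e i sw →
      (∀ (δ : GL (Fin 2) (w.adicCompletion F)) (γ : GL (Fin 2) (v.adicCompletion ℚ))
          (c c' : ℂ), T6.IsReg γ →
          IsConj (T6.twNorm sw D.l δ) (Matrix.GeneralLinearGroup.map i γ) →
          T6.IsTwOrbSum sw (n w) (φ₀ w) δ c → T6.IsOrbSum (m v) (f₀ v) γ c' → c = c') ∧
        ∀ (γ : GL (Fin 2) (v.adicCompletion ℚ)) (c' : ℂ), T6.IsReg γ →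
          ¬ T6.IsNormFrom D.l i sw γ → T6.IsOrbSum (m v) (f₀ v) γ c' → c' = 0
  split : ∀ v ∈ T, ∀ (w : ℕ → HeightOneSpectrum (𝓞 F))
      (i : ∀ j : ℕ, v.adicCompletion ℚ ≃+* (w j).adicCompletion F),
      (∀ j : ℕ, PlaceOver ℚ F v (w j)) → (∀ j : ℕ, T5.PlaceRel D.s (w (j + 1)) (w j)) →
      (∀ j : ℕ, 0 < j → j < D.l → w j ≠ w 0) →
      (∀ (j : ℕ) (x : ℚ), i j (algebraMap ℚ (v.adicCompletion ℚ) x)
        = algebraMap F ((w j).adicCompletion F) (algebraMap ℚ F x)) →
      (∀ (j : ℕ) (x : v.adicCompletion ℚ), Valued.v (i j x) = Valued.v x) →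
      (∀ j : ℕ, n (w j) = m v) ∧
        T6.IsConvProd (T6.InU (m v)) D.l
          (fun j g => φ₀ (w j)
            (Matrix.GeneralLinearGroup.map ((i j : v.adicCompletion ℚ ≃+* _) :
              v.adicCompletion ℚ →+* (w j).adicCompletion F) g))
          (f₀ v)
  arch : ∀ w : InfinitePlace F, T6.IsArchMatch μr μc (Φ w) (fun g => F0 g + F1 g)

variable (F)

/-- **NODE Q2.7 = CUT-INT over `ℚ` (the core).**  Mirror of `H305.CutIntC305`: for locally
matched pure tensors and linked torus measures there are cut-off functions upstairs and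
downstairs for which the cut-off integrals agree up to the constant `κ`; downstairs the cut-off
integral vanishes (for a suitable cut-off) if `γ` is not a norm.  The member downstairs is the
pure tensor with archimedean component `F0 + F1`. -/
def CutIntQC298 : Prop :=
  IsImagQuad F →
    ∀ D : CompData ℚ F, IsCompData D → IsCycExt ℚ F D.l → D.l = 2 →
    ∀ ι : Adl ℚ →+* Adl F, IsAdeleBase305 D.s D.l ι →
    ∀ μr : @Measure (GL (Fin 2) ℝ) (borel _), @Measure.IsHaarMeasure _ _ _ (borel _) μr →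
    ∀ μc : @Measure (GL (Fin 2) ℂ) (borel _), @Measure.IsHaarMeasure _ _ _ (borel _) μc →
    ∀ (T₀ : Finset (HeightOneSpectrum (𝓞 ℚ))), UnramOut305 (K' := F) T₀ →
    ∀ (n : HeightOneSpectrum (𝓞 F) → ℕ) (m : HeightOneSpectrum (𝓞 ℚ) → ℕ),
      IsLevelAt305 T₀ n m →
    ∃ κ : ℂ, κ ≠ 0 ∧
      ∀ (T : Finset (HeightOneSpectrum (𝓞 ℚ))) (T' : Finset (HeightOneSpectrum (𝓞 F))),
        T₀ ⊆ T → IsOver305 T T' →
      ∀ (φ₀ : ∀ w : HeightOneSpectrum (𝓞 F), GL (Fin 2) (w.adicCompletion F) → ℂ)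
        (Φ : InfinitePlace F → GL (Fin 2) ℂ → ℂ)
        (f₀ : ∀ v : HeightOneSpectrum (𝓞 ℚ), GL (Fin 2) (v.adicCompletion ℚ) → ℂ)
        (F0 F1 : GL (Fin 2) ℝ → ℂ),
        LocHypQ298 D μr μc T n m φ₀ Φ f₀ F0 F1 →
        (∀ (δ : GL (Fin 2) F) (γ : GL (Fin 2) ℚ), T6.IsEll γ →
          D.s.normUpTo D.l δ = Matrix.GeneralLinearGroup.map (algebraMap ℚ F) γ →
          ∀ (μT : @Measure (tA305 (T5.AdelicAut.id ℚ) γ) (borel _))
            (μT' : @Measure (tA305 D.s δ) (borel _)),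
            @Measure.IsHaarMeasure _ _ _ (borel _) μT →
            @Measure.IsHaarMeasure _ _ _ (borel _) μT' →
            IsTorLinked305 ι D.s δ γ μT μT' →
            ∃ β' : G F → ℝ, ∃ β : G ℚ → ℝ,
              IsCutOn305 D.s δ μT' β'
                {x | T5.twTerm D.R'.r D.s (pure305 T' φ₀ Φ) δ x ≠ 0} ∧
              IsCutOn305 (T5.AdelicAut.id ℚ) γ μT β
                {x | T5.twTerm D.R.r (T5.AdelicAut.id ℚ)
                  (pureQ298 T f₀ (fun g => F0 g + F1 g)) γ x ≠ 0} ∧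
              cutInt305 D.R'.r D.s (pure305 T' φ₀ Φ) δ D.R'.μ β'
                = κ * cutInt305 D.R.r (T5.AdelicAut.id ℚ)
                    (pureQ298 T f₀ (fun g => F0 g + F1 g)) γ D.R.μ β) ∧
        ∀ γ : GL (Fin 2) ℚ, T6.IsEll γ → (¬ ∃ δ : GL (Fin 2) F, IsNormOf D δ γ) →
          ∀ μT : @Measure (tA305 (T5.AdelicAut.id ℚ) γ) (borel _),
            @Measure.IsHaarMeasure _ _ _ (borel _) μT →
            ∃ β : G ℚ → ℝ,
              IsCutOn305 (T5.AdelicAut.id ℚ) γ μT β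
                {x | T5.twTerm D.R.r (T5.AdelicAut.id ℚ)
                  (pureQ298 T f₀ (fun g => F0 g + F1 g)) γ x ≠ 0} ∧
              cutInt305 D.R.r (T5.AdelicAut.id ℚ)
                (pureQ298 T f₀ (fun g => F0 g + F1 g)) γ D.R.μ β = 0

/-- **`κ` IS A MATCHING CONSTANT** for the data `(D, μr, μc, T₀, n, m)`: for all `T ⊇ T₀` and all
locally matched components, the pure tensor upstairs is matched (`T7.IsGlobMatch D`) with the SUM
of `κ` times the two pure tensors downstairs (weights `0` and `-1`), as soon as the three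
functions are continuous with compact support. -/
def IsMatchConstQ298 (D : CompData ℚ F) (μr : @Measure (GL (Fin 2) ℝ) (borel _))
    (μc : @Measure (GL (Fin 2) ℂ) (borel _)) (T₀ : Finset (HeightOneSpectrum (𝓞 ℚ)))
    (n : HeightOneSpectrum (𝓞 F) → ℕ) (m : HeightOneSpectrum (𝓞 ℚ) → ℕ) (κ : ℂ) : Prop :=
  ∀ (T : Finset (HeightOneSpectrum (𝓞 ℚ))) (T' : Finset (HeightOneSpectrum (𝓞 F))),
    T₀ ⊆ T → IsOver305 T T' →
  ∀ (φ₀ : ∀ w : HeightOneSpectrum (𝓞 F), GL (Fin 2) (w.adicCompletion F) → ℂ)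
    (Φ : InfinitePlace F → GL (Fin 2) ℂ → ℂ)
    (f₀ : ∀ v : HeightOneSpectrum (𝓞 ℚ), GL (Fin 2) (v.adicCompletion ℚ) → ℂ)
    (F0 F1 : GL (Fin 2) ℝ → ℂ),
    LocHypQ298 D μr μc T n m φ₀ Φ f₀ F0 F1 →
    ∀ (φ' : G F → ℂ) (f0 f1 : G ℚ → ℂ),
      (∀ h : G F, φ' h = pure305 T' φ₀ Φ h) →
      (∀ h : G ℚ, f0 h = κ * pureQ298 T f₀ F0 h) →
      (∀ h : G ℚ, f1 h = κ * pureQ298 T f₀ F1 h) →
      T5.IsTestFn D.𝔑 T5.trivType φ' →
      Continuous f0 → HasCompactSupport f0 → Continuous f1 → HasCompactSupport f1 →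
      IsGlobMatch D φ' (fun x => f0 x + f1 x)

/-- **THE NODE Q2 = GLOBAL MATCHING FROM LOCAL MATCHING over `ℚ`.**  For the data of the
comparison `F/ℚ`, Haar measures `μr` of `GL₂(ℝ)` and `μc` of `GL₂(ℂ)`, a base set `T₀` outside
which `F/ℚ` is unramified and the levels are `0`: there is a matching constant `κ ≠ 0`. -/
def GlobMatchQC298 : Prop :=
  IsImagQuad F →
    ∀ D : CompData ℚ F, IsCompData D → IsCycExt ℚ F D.l → D.l = 2 →
    ∀ μr : @Measure (GL (Fin 2) ℝ) (borel _), @Measure.IsHaarMeasure _ _ _ (borel _) μr →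
    ∀ μc : @Measure (GL (Fin 2) ℂ) (borel _), @Measure.IsHaarMeasure _ _ _ (borel _) μc →
    ∀ (T₀ : Finset (HeightOneSpectrum (𝓞 ℚ))), UnramOut305 (K' := F) T₀ →
    ∀ (n : HeightOneSpectrum (𝓞 F) → ℕ) (m : HeightOneSpectrum (𝓞 ℚ) → ℕ),
      IsLevelAt305 T₀ n m →
    ∃ κ : ℂ, κ ≠ 0 ∧ IsMatchConstQ298 F D μr μc T₀ n m κ

end TwoFields

/-! ## Appendix: the equation lemmas of the definitions of this file are realised HERE -/

theorem eqns_realised_matchQSpec298 : True := by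
  have _h0 := @reHomQ298.eq_1
  have _h1 := @reGLQ298.eq_1
  have _h2 := @pureQ298.eq_1
  have _h3 := @UnfoldGC298.eq_1
  have _h4 := @IotaQC298.eq_1
  have _h5 := @TorMeasQC298.eq_1
  have _h6 := @TorCompQC298.eq_1
  have _h7 := @CutIntQC298.eq_1
  have _h8 := @IsMatchConstQ298.eq_1
  have _h9 := @GlobMatchQC298.eq_1
  have _g0 := @reHomQ298.eq_def
  have _g1 := @reGLQ298.eq_def
  have _g2 := @pureQ298.eq_def
  have _g3 := @UnfoldGC298.eq_def
  have _g4 := @IotaQC298.eq_def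
  have _g5 := @TorMeasQC298.eq_def
  have _g6 := @TorCompQC298.eq_def
  have _g7 := @CutIntQC298.eq_def
  have _g8 := @IsMatchConstQ298.eq_def
  have _g9 := @GlobMatchQC298.eq_def
  trivial

end Fermat.Agent.LT.T7.MQ298

end
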