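import Mathlib
import Fermat.Agent.LT.T7.H305.MatchCut
import Fermat.Agent.LT.T7.H298.MatchQSpec

/-!
# Row LT, tower T7, node Q2.7 `CutIntQC298` (registry row 2605, owner helper298):
# SECOND CUT over `ℚ` -- Spec

OFF-MAIN.  Definitions and frozen Props only (the proved top is `MatchQCutTop.lean`).  No hole,
nothing assumed.  ADDITIVE (new names only, suffix `298`, namespace
`Fermat.Agent.LT.T7.MQ298`).  MIRROR of the second cut of the cubic node `CutIntC305`,
`T7/H305/MatchCut.lean` (helper305@56ddcdc02, sha256 0f302b81), which is imported AS IT IS.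

    cutIntQC_of298 : HasSqrtNegThree F → T6.T6Out → GoodSetC305 ℚ F → UnitMatchQC298 F →
        PureExtC305 ℚ → PureExtC305 F → LocMeasC305 → LocCutC305 → ArchMeasRC298 →
        TorSplitQC298 → FactDownQC298 → FactUpQC298 F → LocVanC305 → ArchVanQC298 →
        NonNormLocQC298 F → CutIntQC298 F

## REUSED VERBATIM from the cubic cut (closed or in work on the branches)

`GoodSetC305 ℚ F` (helper861/877/165), `PureExtC305 ℚ`, `PureExtC305 F` (helper82),
`LocMeasC305`, `LocCutC305` (abstract local fields), `LocVanC305` (helper385), and the ASSET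
`SuppDownC305 ℚ` (no hypothesis on the infinite places).

## NEW (the real place of `ℚ`)

* `LocDataQ298 γ`, `IsLocDataQ298 m L` : local data over `ℚ`; at the real place a Haar measure
  `μtr` of the centraliser of `γ_∞` in `GL₂(ℝ)` and a cut-off function `βr` on `GL₂(ℝ)`.
* `compSQ298`, `IsTorConstQ298`, `prodCutQ298`, `factValQ298` : as in the cubic cut, the
  archimedean factor is `∫ Fr(y⁻¹ (γ r^j)_∞ y) βr(y) dμr(y)` on `GL₂(ℝ)`.
* LEAVES `ArchMeasRC298` [S] (`ArchMeasC305` for `GL₂(ℝ)`), `HaarSplitQC298` [L, ASSET]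
  (`HaarSplitC305` for `ℚ`), `TorSplitQC298` [L] (`TorSplitC305` for `ℚ`), `UnitMatchQC298 F`
  [M] (`UnitMatchC305` for `LocHypQ298`), `ArchVanQC298` [M] (vanishing at the real place along
  the ray), `NonNormLocQC298 F` [L] (`NonNormLocC305` for `F/ℚ`: a finite place with one place
  over it OR the real place; `T6.NormImageQC`).
* NODES `FactDownQC298` [XL], `FactUpQC298 F` [XL].

FALSITY CHECKS (helper298).  (1) `IsRayGen` for `ℚ`: `t² = 2`, the real component of `r^j` is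
the positive scalar `t^j`; `(γ r^j)_∞ = t^j γ_∞` has the centraliser of `γ_∞` and is a norm from
`GL₂(ℂ)` iff `γ_∞` is (`t^j = N(t^{j/2})`): `ArchVanQC298`.  (2) Upstairs `t'⁴ = 2`,
`N(r') = r'² = ι(r)`: the sums over the ray correspond term by term, `FactUpQC298` has the SAME
`factValQ298` as `FactDownQC298`.  (3) `T6.IsArchMatch` quantifies over all cut-off data of the
centraliser of the regular element `(γ r^j)_∞`: it applies to the local datum of `γ_∞`.
(4) `HasSqrtNegThree F` is needed for `T6.NormImageQC` only (`NonNormLocQC298`).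
-/

set_option autoImplicit false

open AutomorphicForm IsDedekindDomain NumberField MeasureTheory
open scoped ComplexConjugate

noncomputable section

namespace Fermat.Agent.LT.T7.MQ298

open Fermat.Agent.LT.H556 Fermat.Agent.LT.H556.A0 Fermat.Agent.LT.T7 Fermat.Agent.LT.T7.H305

attribute [local instance] Fermat.Agent.LT.T5.instMeasurableSpaceG

/-! ## 1. Local data over `ℚ`, the torus constant, the product cut-off, the factorised value -/

/-- The components of `y ∈ GL₂(𝔸_ℚ)` at the places of `S` and at the real place. -/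
def compSQ298 (S : Finset (HeightOneSpectrum (𝓞 ℚ))) (y : G ℚ) :
    (∀ v : S, GL (Fin 2) ((v : HeightOneSpectrum (𝓞 ℚ)).adicCompletion ℚ)) × GL (Fin 2) ℝ :=
  (fun v => finGL305 v.1 y, reGLQ298 y)

/-- **LOCAL DATA over `ℚ`** for the elliptic element `γ`: local Haar measures, Haar measures of
the local tori, local cut-off functions, at all finite places; a Haar measure of the centraliser
of `γ_∞` in `GL₂(ℝ)` and a cut-off function at the real place. -/
structure LocDataQ298 (γ : GL (Fin 2) ℚ) where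
  /-- the Haar measure of `GL₂(ℚ_v)` -/
  μv : ∀ v : HeightOneSpectrum (𝓞 ℚ), @Measure (GL (Fin 2) (v.adicCompletion ℚ)) (borel _)
  /-- the Haar measure of the centraliser of `γ` in `GL₂(ℚ_v)` -/
  μt : ∀ v : HeightOneSpectrum (𝓞 ℚ),
    @Measure (T6.twCentSub (T6.glAut (RingEquiv.refl (v.adicCompletion ℚ))) (locG305 v γ))
      (borel _)
  /-- the cut-off function at `v` -/
  βv : ∀ v : HeightOneSpectrum (𝓞 ℚ), GL (Fin 2) (v.adicCompletion ℚ) → ℝ
  /-- the Haar measure of the centraliser of `γ` in `GL₂(ℝ)` -/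
  μtr : @Measure (cent305 (reGLQ298 (T5.ratG γ))) (borel _)
  /-- the cut-off function at the real place -/
  βr : GL (Fin 2) ℝ → ℝ

/-- The properties of the local data over `ℚ` (levels `m`). -/
structure IsLocDataQ298 (m : HeightOneSpectrum (𝓞 ℚ) → ℕ) {γ : GL (Fin 2) ℚ}
    (L : LocDataQ298 γ) : Prop where
  haar : ∀ v : HeightOneSpectrum (𝓞 ℚ), IsLocHaar305 (m v) (L.μv v)
  tor : ∀ v : HeightOneSpectrum (𝓞 ℚ),
    IsLocTor305 (RingEquiv.refl (v.adicCompletion ℚ)) (locG305 v γ) (L.μt v)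
  cut : ∀ v : HeightOneSpectrum (𝓞 ℚ),
    IsLocCut305 (RingEquiv.refl (v.adicCompletion ℚ)) (locG305 v γ) (L.μt v) (L.βv v)
  torr : @Measure.IsHaarMeasure _ _ _ (borel _) L.μtr
  cutr : IsCut305 (reGLQ298 (T5.ratG γ)) L.μtr L.βr

/-- `cT` is THE TORUS CONSTANT of the Haar measure `μT` of `T_𝔸(γ)` against the local torus
measures of `L` (mirror of `H305.IsTorConst305`; the real place in `GL₂(ℝ)`). -/
def IsTorConstQ298 (γ : GL (Fin 2) ℚ)
    (μT : @Measure (tA305 (T5.AdelicAut.id ℚ) γ) (borel _)) (L : LocDataQ298 γ) (cT : ℝ) :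
    Prop :=
  letI : MeasurableSpace (tA305 (T5.AdelicAut.id ℚ) γ) := borel _
  letI : ∀ v : HeightOneSpectrum (𝓞 ℚ), MeasurableSpace (GL (Fin 2) (v.adicCompletion ℚ)) :=
    fun _ => borel _
  letI : MeasurableSpace (GL (Fin 2) ℝ) := borel _
  letI : ∀ v : HeightOneSpectrum (𝓞 ℚ), MeasurableSpace
      (T6.twCentSub (T6.glAut (RingEquiv.refl (v.adicCompletion ℚ))) (locG305 v γ)) :=
    fun _ => borel _
  letI : MeasurableSpace (cent305 (reGLQ298 (T5.ratG γ))) := borel _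
  ∀ S : Finset (HeightOneSpectrum (𝓞 ℚ)), GoodOut305 S γ →
    Measure.map (fun t : tA305 (T5.AdelicAut.id ℚ) γ => compSQ298 S (t : G ℚ))
        (μT.restrict {t | OutT305 S (t : G ℚ)})
      = ENNReal.ofReal cT •
        ((Measure.pi fun v : S => Measure.map Subtype.val (L.μt v.1)).prod
          (Measure.map Subtype.val L.μtr))

open Classical in
/-- THE PRODUCT CUT-OFF over `ℚ`: `β = c_T⁻¹ 1_{Out_S} ∏_{v ∈ S} β_v · β_r`. -/
def prodCutQ298 (S : Finset (HeightOneSpectrum (𝓞 ℚ))) (cT : ℝ) {γ : GL (Fin 2) ℚ}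
    (L : LocDataQ298 γ) (y : G ℚ) : ℝ :=
  if OutT305 S y then
    cT⁻¹ * (∏ v ∈ S, L.βv v (finGL305 v y)) * L.βr (reGLQ298 y)
  else 0

/-- THE FACTORISED VALUE over `ℚ`: `∑_j ∏_{v ∈ S} I_v · I_∞(j)`,
`I_∞(j) = ∫ Fr(y⁻¹ (γ r^j)_∞ y) β_r(y) dμr(y)`. -/
def factValQ298 (r : G ℚ) (S : Finset (HeightOneSpectrum (𝓞 ℚ))) {γ : GL (Fin 2) ℚ}
    (L : LocDataQ298 γ)
    (f₀ : ∀ v : HeightOneSpectrum (𝓞 ℚ), GL (Fin 2) (v.adicCompletion ℚ) → ℂ)
    (μr : @Measure (GL (Fin 2) ℝ) (borel _)) (Fr : GL (Fin 2) ℝ → ℂ) : ℂ :=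
  ∑' j : ℤ, (∏ v ∈ S, locInt305 (L.μv v) (L.βv v) (f₀ v) (locG305 v γ)) *
    locInt305 μr L.βr Fr (reGLQ298 (T5.ratG γ * r ^ j))

/-! ## 2. Leaves and the node downstairs (one field: `ℚ`) -/

/-- **LEAF Q2.7.3 = ARCH-MEAS (`GL₂(ℝ)`).**  Mirror of `H305.ArchMeasC305`: the centraliser of a
regular element of `GL₂(ℝ)` has a Haar measure, and for every Haar measure of it there is a
continuous cut-off function.
Proof.  As for `GL₂(ℂ)`: `GL₂(ℝ)` is a locally compact, `σ`-compact group, the centraliser is a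
closed commutative subgroup (helper159 `comm_of_inTwCent159`: the centraliser of a regular
element is commutative, any field), `exists_cutoff584` (helper584, `T7/H584/Cutoff.lean`). -/
def ArchMeasRC298 : Prop :=
  ∀ γ : GL (Fin 2) ℝ, T6.IsReg γ →
    (∃ μT : @Measure (cent305 γ) (borel _), @Measure.IsHaarMeasure _ _ _ (borel _) μT) ∧
    ∀ μT : @Measure (cent305 γ) (borel _), @Measure.IsHaarMeasure _ _ _ (borel _) μT →
      ∃ β : GL (Fin 2) ℝ → ℝ, IsCut305 γ μT β

/-- **ASSET LEAF Q2.7.4 = HAAR-SPLIT over `ℚ`.**  Mirror of `H305.HaarSplitC305`: `μ` a Haar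
measure of `GL₂(𝔸_ℚ)`, `μr` one of `GL₂(ℝ)`, levels `m` (`0` outside `T₀`).  There is a constant
`c > 0` such that for EVERY finite `S ⊇ T₀` and local Haar measures `μ_v` with
`μ_v(U(m_v)) = 1`: the image of `μ` restricted to `{y : y_v ∈ GL₂(ℤ_v), v ∉ S}` under
`y ↦ ((y_v)_{v ∈ S}, y_∞)` is `c` times the product measure.
Proof.  As `HaarSplitC305` (helper159 `T7/H159/RestrGL.lean` for the totally complex case): the
map is a continuous surjective homomorphism of `Out_S` with compact kernel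
`∏_{v ∉ S} GL₂(ℤ_v)`; uniqueness of the Haar measure; the constant does not depend on `S`
(evaluate on `∏ U(m_v) × B`). -/
def HaarSplitQC298 : Prop :=
  ∀ μ : Measure (G ℚ), μ.IsHaarMeasure →
    ∀ μr : @Measure (GL (Fin 2) ℝ) (borel _), @Measure.IsHaarMeasure _ _ _ (borel _) μr →
    ∀ (T₀ : Finset (HeightOneSpectrum (𝓞 ℚ))) (m : HeightOneSpectrum (𝓞 ℚ) → ℕ),
      (∀ v : HeightOneSpectrum (𝓞 ℚ), v ∉ T₀ → m v = 0) →
    ∃ c : ℝ, 0 < c ∧
      ∀ S : Finset (HeightOneSpectrum (𝓞 ℚ)), T₀ ⊆ S →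
      ∀ μv : ∀ v : HeightOneSpectrum (𝓞 ℚ), @Measure (GL (Fin 2) (v.adicCompletion ℚ)) (borel _),
        (∀ v : HeightOneSpectrum (𝓞 ℚ), IsLocHaar305 (m v) (μv v)) →
        letI : ∀ v : HeightOneSpectrum (𝓞 ℚ),
            MeasurableSpace (GL (Fin 2) (v.adicCompletion ℚ)) := fun _ => borel _
        letI : MeasurableSpace (GL (Fin 2) ℝ) := borel _
        Measure.map (compSQ298 S) (μ.restrict {y | OutT305 S y})
          = ENNReal.ofReal c • ((Measure.pi fun v : S => μv v.1).prod μr)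

/-- **LEAF Q2.7.5 = TOR-SPLIT over `ℚ`** (the torus constant exists).  Mirror of
`H305.TorSplitC305`: `γ` elliptic, `μT` a Haar measure of `T_𝔸(γ)`, local torus measures
(normalised at the finite places, an arbitrary Haar measure at the real place): there is a torus
constant `c_T > 0`. -/
def TorSplitQC298 : Prop :=
  ∀ γ : GL (Fin 2) ℚ, T6.IsEll γ →
    ∀ μT : @Measure (tA305 (T5.AdelicAut.id ℚ) γ) (borel _),
      @Measure.IsHaarMeasure _ _ _ (borel _) μT →
    ∀ L : LocDataQ298 γ,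
      (∀ v : HeightOneSpectrum (𝓞 ℚ),
        IsLocTor305 (RingEquiv.refl (v.adicCompletion ℚ)) (locG305 v γ) (L.μt v)) →
      @Measure.IsHaarMeasure _ _ _ (borel _) L.μtr →
      ∃ cT : ℝ, 0 < cT ∧ IsTorConstQ298 γ μT L cT

/-- **NODE Q2.7.7 = FACT-DOWN over `ℚ`** (the factorisation downstairs).  Mirror of
`H305.FactDownC305`: for the product cut-off `β = c_T⁻¹ 1_{Out_S} ∏ β_v · β_r`,

    ∫ f♭(y⁻¹ γ y) β(y) dμ(y) = (c_G / c_T) ∑_j ∏_{v ∈ S} I_v · I_∞(j),

`f` the pure tensor with real archimedean component `Fr` (continuous, compact support).  The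
constant `c_G` depends on `μ`, `μr`, `T₀`, `m` only.
Proof.  As `FactDownC305`, with `HaarSplitQC298`, `SuppDownC305 ℚ`, `IsTorConstQ298`. -/
def FactDownQC298 : Prop :=
  ∀ R : Frame5 ℚ, IsFrame5 R →
    ∀ μr : @Measure (GL (Fin 2) ℝ) (borel _), @Measure.IsHaarMeasure _ _ _ (borel _) μr →
    ∀ (T₀ : Finset (HeightOneSpectrum (𝓞 ℚ))) (m : HeightOneSpectrum (𝓞 ℚ) → ℕ),
      (∀ v : HeightOneSpectrum (𝓞 ℚ), v ∉ T₀ → m v = 0) →
    ∃ cG : ℝ, 0 < cG ∧
      ∀ S : Finset (HeightOneSpectrum (𝓞 ℚ)), T₀ ⊆ S →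
      ∀ (f₀ : ∀ v : HeightOneSpectrum (𝓞 ℚ), GL (Fin 2) (v.adicCompletion ℚ) → ℂ)
        (Fr : GL (Fin 2) ℝ → ℂ),
        (∀ v ∈ S, T6.IsBiInv (T6.InU (m v)) (f₀ v) ∧ T6.HasFinSupp (T6.InU (m v)) (f₀ v)) →
        Continuous Fr → HasCompactSupport Fr →
      ∀ γ : GL (Fin 2) ℚ, T6.IsEll γ → GoodOut305 S γ →
      ∀ μT : @Measure (tA305 (T5.AdelicAut.id ℚ) γ) (borel _),
        @Measure.IsHaarMeasure _ _ _ (borel _) μT →
      ∀ (L : LocDataQ298 γ) (cT : ℝ), IsLocDataQ298 m L → 0 < cT → IsTorConstQ298 γ μT L cT →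
        IsCutOn305 (T5.AdelicAut.id ℚ) γ μT (prodCutQ298 S cT L)
            {x | T5.twTerm R.r (T5.AdelicAut.id ℚ) (pureQ298 S f₀ Fr) γ x ≠ 0} ∧
          cutInt305 R.r (T5.AdelicAut.id ℚ) (pureQ298 S f₀ Fr) γ R.μ (prodCutQ298 S cT L)
            = ((cG / cT : ℝ) : ℂ) * factValQ298 R.r S L f₀ μr Fr

/-- **LEAF Q2.7.9r = ARCH-VAN (vanishing at the real place along the ray).**  If `γ_∞` is not a
norm from `GL₂(ℂ)` and `f` is matched with some `Φ` (`T6.IsArchMatch`), then for every cut-off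
datum `(μtr, βr)` of the centraliser of `γ_∞` and every `j`:
`∫ f(y⁻¹ (γ r^j)_∞ y) βr(y) dμr(y) = 0`.
Proof.  `IsRayGen`: the real component of `r` is the scalar `t > 0` (`t² = 2`; the component of
`T5.infComp` in `ℂ` is the image of the real component), so `(γ r^j)_∞ = t^j γ_∞`: regular
(`disc (c γ) = c² disc γ`), with the same centraliser (transport `μtr` along the equality of the
subgroups), not a norm (if `δ δ̄ ∼ t^j γ_∞` then `δ' = t^{-j/2} δ` has `δ' δ̄' ∼ γ_∞`).  Second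
clause of `T6.IsArchMatch`. -/
def ArchVanQC298 : Prop :=
  ∀ R : Frame5 ℚ, IsFrame5 R →
    ∀ (μr : @Measure (GL (Fin 2) ℝ) (borel _)) (μc : @Measure (GL (Fin 2) ℂ) (borel _))
      (Φ : GL (Fin 2) ℂ → ℂ) (f : GL (Fin 2) ℝ → ℂ), T6.IsArchMatch μr μc Φ f →
    ∀ γ : GL (Fin 2) ℚ, T6.IsEll γ →
      ¬ T6.IsNormFrom 2 (algebraMap ℝ ℂ) (starRingAut : ℂ ≃+* ℂ) (reGLQ298 (T5.ratG γ)) →
    ∀ (μtr : @Measure (cent305 (reGLQ298 (T5.ratG γ))) (borel _)) (βr : GL (Fin 2) ℝ → ℝ),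
      @Measure.IsHaarMeasure _ _ _ (borel _) μtr → IsCut305 (reGLQ298 (T5.ratG γ)) μtr βr →
      ∀ j : ℤ, locInt305 μr βr f (reGLQ298 (T5.ratG γ * R.r ^ j)) = 0

/-! ## 3. Two fields: `F/ℚ` -/

section TwoFieldsCutQ

variable (F : Type) [Field F] [NumberField F]

/-- **LEAF Q2.7.11 = UNIT-MATCH over `ℚ`** (the fundamental lemma for the unit element).  Mirror
of `H305.UnitMatchC305` for `LocHypQ298`: if `T₀ ⊆ T ⊆ S`, the places outside `T₀` are unramified
and the levels are `0` there, the local hypotheses for `T` give the local hypotheses for `S`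
with unit components at the new places.  (The archimedean clauses do not change.) -/
def UnitMatchQC298 : Prop :=
  T6.T6Out → IsImagQuad F →
  ∀ D : CompData ℚ F, IsCompData D → IsCycExt ℚ F D.l → D.l = 2 →
    ∀ μr : @Measure (GL (Fin 2) ℝ) (borel _), @Measure.IsHaarMeasure _ _ _ (borel _) μr →
    ∀ μc : @Measure (GL (Fin 2) ℂ) (borel _), @Measure.IsHaarMeasure _ _ _ (borel _) μc →
    ∀ (T₀ : Finset (HeightOneSpectrum (𝓞 ℚ))), UnramOut305 (K' := F) T₀ →
    ∀ (n : HeightOneSpectrum (𝓞 F) → ℕ) (m : HeightOneSpectrum (𝓞 ℚ) → ℕ),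
      IsLevelAt305 T₀ n m →
    ∀ (T S : Finset (HeightOneSpectrum (𝓞 ℚ))) (T' S' : Finset (HeightOneSpectrum (𝓞 F))),
      T₀ ⊆ T → T ⊆ S → IsOver305 T T' → IsOver305 S S' →
    ∀ (φ₀ : ∀ w : HeightOneSpectrum (𝓞 F), GL (Fin 2) (w.adicCompletion F) → ℂ)
      (Φ : InfinitePlace F → GL (Fin 2) ℂ → ℂ)
      (f₀ : ∀ v : HeightOneSpectrum (𝓞 ℚ), GL (Fin 2) (v.adicCompletion ℚ) → ℂ)
      (F0 F1 : GL (Fin 2) ℝ → ℂ),
      LocHypQ298 D μr μc T n m φ₀ Φ f₀ F0 F1 →
      LocHypQ298 D μr μc S n m (ext305 T' φ₀) Φ (ext305 T f₀) F0 F1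

/-- **LEAF Q2.7.12 = NON-NORM-LOC over `ℚ`.**  `F = ℚ(√-3)`.  An elliptic `γ ∈ GL₂(ℚ)` which is
not a norm is not a local norm at a finite place `v` with ONE place `w` above it (for some local
extension datum `(e, i, s_w)`), OR is not a norm from `GL₂(ℂ)` at the real place.
Proof.  `T6.NormImageQC` (contrapositive): `γ` is not a norm in `GL₂(F ⊗ ℚ_v)` for a finite
place `v`, or not in `GL₂(F ⊗ ℝ)`.  Finite `v`: as in `H305.NonNormLocC305` (closed: helper584,
helper857).  Real place: `F ⊗_ℚ ℝ ≅ ℂ` (one infinite place, complex), `σ ⊗ 1` is the complex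
conjugation. -/
def NonNormLocQC298 : Prop :=
  T6.T6Out → IsImagQuad F → HasSqrtNegThree F →
  ∀ D : CompData ℚ F, IsCompData D → IsCycExt ℚ F D.l → D.l = 2 →
    ∀ γ : GL (Fin 2) ℚ, T6.IsEll γ → (¬ ∃ δ : GL (Fin 2) F, IsNormOf D δ γ) →
      (∃ (v : HeightOneSpectrum (𝓞 ℚ)) (w : HeightOneSpectrum (𝓞 F)) (e : ℕ)
        (i : v.adicCompletion ℚ →+* w.adicCompletion F)
        (sw : w.adicCompletion F ≃+* w.adicCompletion F),
        PlaceOver ℚ F v w ∧
        (∀ w' : HeightOneSpectrum (𝓞 F), PlaceOver ℚ F v w' → w' = w) ∧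
        (∀ x : ℚ, i (algebraMap ℚ (v.adicCompletion ℚ) x)
          = algebraMap F (w.adicCompletion F) (algebraMap ℚ F x)) ∧
        (∀ y : F, sw (algebraMap F (w.adicCompletion F) y)
          = algebraMap F (w.adicCompletion F) (D.s.σ y)) ∧
        T6.IsLocalExt (v.adicCompletion ℚ) (w.adicCompletion F) D.l e i sw ∧
        ¬ T6.IsNormFrom D.l i sw (locG305 v γ)) ∨
      ¬ T6.IsNormFrom 2 (algebraMap ℝ ℂ) (starRingAut : ℂ ≃+* ℂ) (reGLQ298 (T5.ratG γ))

/-- **NODE Q2.7.13 = FACT-UP over `ℚ`** (the factorisation upstairs, with local matching).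
Mirror of `H305.FactUpC305`: for a suitable cut-off `β'` upstairs and linked torus measures,

    ∫ φ'♭(y⁻¹ δ σ(y)) β'(y) dμ'(y) = (c'_G / c_T) ∑_j ∏_{v ∈ S} I_v · I_∞(j)

with THE SAME local integrals downstairs (`factValQ298` for `Fr = F0 + F1`).  The constant
`c'_G` depends on `D`, `ι`, `μr`, `μc`, `T₀`, `n`, `m` only.
Proof.  As `FactUpC305`; at the infinite place: `F` has ONE infinite place `w`, complex, the
conjugation of `F` is the complex conjugation in the coordinate of `w`; `N(δ r'^j) = γ ι(r)^j`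
(`t'⁴ = 2`, `t'² = t`); `β'_∞` a continuous cut-off function on `GL₂(ℂ)` for the image of the
centraliser of `γ_∞` with the image of `μtr` (exists: `H305.ArchMeasC305` form,
`exists_cutoff584`); FIRST clause of `LocHypQ298.arch` (`T6.IsArchMatch`) for `(γ r^j)_∞`,
`(δ r'^j)_w` and the cut-off data transported to the centraliser of `(γ r^j)_∞` (the same
subgroup). -/
def FactUpQC298 : Prop :=
  T6.T6Out → IsImagQuad F →
  ∀ D : CompData ℚ F, IsCompData D → IsCycExt ℚ F D.l → D.l = 2 →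
    ∀ ι : Adl ℚ →+* Adl F, IsAdeleBase305 D.s D.l ι →
    ∀ μr : @Measure (GL (Fin 2) ℝ) (borel _), @Measure.IsHaarMeasure _ _ _ (borel _) μr →
    ∀ μc : @Measure (GL (Fin 2) ℂ) (borel _), @Measure.IsHaarMeasure _ _ _ (borel _) μc →
    ∀ (T₀ : Finset (HeightOneSpectrum (𝓞 ℚ))), UnramOut305 (K' := F) T₀ →
    ∀ (n : HeightOneSpectrum (𝓞 F) → ℕ) (m : HeightOneSpectrum (𝓞 ℚ) → ℕ),
      IsLevelAt305 T₀ n m →
    ∃ cG' : ℝ, 0 < cG' ∧
      ∀ (S : Finset (HeightOneSpectrum (𝓞 ℚ))) (S' : Finset (HeightOneSpectrum (𝓞 F))),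
        T₀ ⊆ S → IsOver305 S S' →
      ∀ (φ₀ : ∀ w : HeightOneSpectrum (𝓞 F), GL (Fin 2) (w.adicCompletion F) → ℂ)
        (Φ : InfinitePlace F → GL (Fin 2) ℂ → ℂ)
        (f₀ : ∀ v : HeightOneSpectrum (𝓞 ℚ), GL (Fin 2) (v.adicCompletion ℚ) → ℂ)
        (F0 F1 : GL (Fin 2) ℝ → ℂ),
        LocHypQ298 D μr μc S n m φ₀ Φ f₀ F0 F1 →
      ∀ (δ : GL (Fin 2) F) (γ : GL (Fin 2) ℚ), T6.IsEll γ →
        D.s.normUpTo D.l δ = Matrix.GeneralLinearGroup.map (algebraMap ℚ F) γ →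
        GoodOut305 S γ → IntOut305 S' δ →
      ∀ (μT : @Measure (tA305 (T5.AdelicAut.id ℚ) γ) (borel _))
        (μT' : @Measure (tA305 D.s δ) (borel _)),
        @Measure.IsHaarMeasure _ _ _ (borel _) μT →
        @Measure.IsHaarMeasure _ _ _ (borel _) μT' →
        IsTorLinked305 ι D.s δ γ μT μT' →
      ∀ (L : LocDataQ298 γ) (cT : ℝ), IsLocDataQ298 m L → 0 < cT → IsTorConstQ298 γ μT L cT →
        ∃ β' : G F → ℝ,
          IsCutOn305 D.s δ μT' β'
              {x | T5.twTerm D.R'.r D.s (pure305 S' φ₀ Φ) δ x ≠ 0} ∧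
            cutInt305 D.R'.r D.s (pure305 S' φ₀ Φ) δ D.R'.μ β'
              = ((cG' / cT : ℝ) : ℂ) *
                factValQ298 D.R.r S L f₀ μr (fun g => F0 g + F1 g)

end TwoFieldsCutQ

/-! ## Appendix: the equation lemmas of the definitions of this file are realised HERE -/

theorem eqns_realised_matchQCut298 : True := by
  have _h0 := @compSQ298.eq_1
  have _h1 := @IsTorConstQ298.eq_1
  have _h2 := @prodCutQ298.eq_1
  have _h3 := @factValQ298.eq_1
  have _h4 := @ArchMeasRC298.eq_1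
  have _h5 := @HaarSplitQC298.eq_1
  have _h6 := @TorSplitQC298.eq_1
  have _h7 := @FactDownQC298.eq_1
  have _h8 := @ArchVanQC298.eq_1
  have _h9 := @UnitMatchQC298.eq_1
  have _h10 := @NonNormLocQC298.eq_1
  have _h11 := @FactUpQC298.eq_1
  have _g0 := @compSQ298.eq_def
  have _g1 := @IsTorConstQ298.eq_def
  have _g2 := @prodCutQ298.eq_def
  have _g3 := @factValQ298.eq_def
  have _g4 := @ArchMeasRC298.eq_def
  have _g5 := @HaarSplitQC298.eq_def
  have _g6 := @TorSplitQC298.eq_def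
  have _g7 := @FactDownQC298.eq_def
  have _g8 := @ArchVanQC298.eq_def
  have _g9 := @UnitMatchQC298.eq_def
  have _g10 := @NonNormLocQC298.eq_def
  have _g11 := @FactUpQC298.eq_def
  trivial

end Fermat.Agent.LT.T7.MQ298

end
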