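import Mathlib
import Fermat.Agent.LT.T7.H305.MatchCutTop
import Fermat.Agent.LT.T7.H298.MatchQCut

/-!
# Row LT, tower T7, node Q2.7 `CutIntQC298` (registry row 2605, owner helper298):
# SECOND CUT over `ℚ` -- the proved top

OFF-MAIN.  Complete proof, nothing assumed.

    cutIntQC_of298 : HasSqrtNegThree F → T6.T6Out → GoodSetC305 ℚ F → UnitMatchQC298 F →
        PureExtC305 ℚ → PureExtC305 F → LocMeasC305 → LocCutC305 → ArchMeasRC298 →
        TorSplitQC298 → FactDownQC298 → FactUpQC298 F → LocVanC305 → ArchVanQC298 →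
        NonNormLocQC298 F → CutIntQC298 F

The constant of the node is `κ = c'_G / c_G` (`FactUpQC298`, `FactDownQC298`).
-/

set_option autoImplicit false
set_option linter.unusedSectionVars false

open AutomorphicForm IsDedekindDomain NumberField MeasureTheory
open scoped ComplexConjugate

noncomputable section

namespace Fermat.Agent.LT.T7.MQ298

open Fermat.Agent.LT.H556 Fermat.Agent.LT.H556.A0 Fermat.Agent.LT.T7 Fermat.Agent.LT.T7.H305

attribute [local instance] Fermat.Agent.LT.T5.instMeasurableSpaceG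

section Lemmas

/-- The real component of a rational element is regular. -/
theorem isReg_reGLQ298 {γ : GL (Fin 2) ℚ} (h : T6.IsEll γ) :
    T6.IsReg (reGLQ298 (T5.ratG γ)) := by
  have h1 : reGLQ298 (T5.ratG γ)
      = Matrix.GeneralLinearGroup.map (reHomQ298.comp (algebraMap ℚ (Adl ℚ))) γ := by
    apply Units.ext
    ext a b
    rfl
  rw [h1]
  exact isReg_map305 _ h.1

/-- **LOCAL DATA over `ℚ` EXIST.** -/
theorem exists_locDataQ298 (hT6 : T6.T6Out) (hmeas : LocMeasC305) (hcut : LocCutC305)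
    (harch : ArchMeasRC298) (m : HeightOneSpectrum (𝓞 ℚ) → ℕ) {γ : GL (Fin 2) ℚ}
    (hell : T6.IsEll γ) : ∃ L : LocDataQ298 γ, IsLocDataQ298 m L := by
  have hloc : T6.InstLocalC := hT6.2.2.2.2.2.1
  have hreg : ∀ v : HeightOneSpectrum (𝓞 ℚ),
      T6.IsReg (T6.twNorm (RingEquiv.refl (v.adicCompletion ℚ)) 1 (locG305 v γ)) := fun v => by
    rw [twNorm_one305]; exact isReg_locG305 hell v
  have h1 : ∀ v : HeightOneSpectrum (𝓞 ℚ),
      ∃ μ : @Measure (GL (Fin 2) (v.adicCompletion ℚ)) (borel _), IsLocHaar305 (m v) μ :=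
    fun v => (hmeas (v.adicCompletion ℚ) _ (hloc ℚ v)).1 (m v)
  have h2 : ∀ v : HeightOneSpectrum (𝓞 ℚ),
      ∃ μT : @Measure (T6.twCentSub (T6.glAut (RingEquiv.refl (v.adicCompletion ℚ)))
          (locG305 v γ)) (borel _),
        IsLocTor305 (RingEquiv.refl (v.adicCompletion ℚ)) (locG305 v γ) μT :=
    fun v => (hmeas (v.adicCompletion ℚ) _ (hloc ℚ v)).2 1 (RingEquiv.refl _)
      (fun _ => rfl) Nat.one_pos (fun _ => rfl) (locG305 v γ) (hreg v)
  choose μv hμv using h1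
  choose μt hμt using h2
  have h3 : ∀ v : HeightOneSpectrum (𝓞 ℚ), ∃ β : GL (Fin 2) (v.adicCompletion ℚ) → ℝ,
      IsLocCut305 (RingEquiv.refl (v.adicCompletion ℚ)) (locG305 v γ) (μt v) β :=
    fun v => hcut (v.adicCompletion ℚ) _ (hloc ℚ v) 1 (RingEquiv.refl _)
      (fun _ => rfl) Nat.one_pos (fun _ => rfl) (locG305 v γ) (hreg v) (μt v) (hμt v).1
  choose βv hβv using h3
  obtain ⟨μtr, hμtr⟩ := (harch (reGLQ298 (T5.ratG γ)) (isReg_reGLQ298 hell)).1
  obtain ⟨βr, hβr⟩ := (harch (reGLQ298 (T5.ratG γ)) (isReg_reGLQ298 hell)).2 μtr hμtr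
  exact ⟨⟨μv, μt, βv, μtr, βr⟩, ⟨hμv, hμt, hβv, hμtr, hβr⟩⟩

/-- The pure tensor over `ℚ` is the pure tensor with trivial archimedean components times the
real component. -/
theorem pureQ_eq298 (T : Finset (HeightOneSpectrum (𝓞 ℚ)))
    (f₀ : ∀ v : HeightOneSpectrum (𝓞 ℚ), GL (Fin 2) (v.adicCompletion ℚ) → ℂ)
    (Fr : GL (Fin 2) ℝ → ℂ) (h : G ℚ) :
    pureQ298 T f₀ Fr h = pure305 T f₀ (fun _ _ => 1) h * Fr (reGLQ298 h) := by
  classical
  unfold pureQ298 pure305
  by_cases hT : OutT305 T h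
  · rw [if_pos hT, if_pos hT, Finset.prod_const_one, mul_one]
  · rw [if_neg hT, if_neg hT, zero_mul]

theorem pureQ_ext_fun298 (hp : PureExtC305 ℚ) {T S : Finset (HeightOneSpectrum (𝓞 ℚ))}
    (hTS : T ⊆ S)
    (f₀ : ∀ v : HeightOneSpectrum (𝓞 ℚ), GL (Fin 2) (v.adicCompletion ℚ) → ℂ)
    (Fr : GL (Fin 2) ℝ → ℂ) :
    pureQ298 S (ext305 T f₀) Fr = pureQ298 T f₀ Fr := by
  funext h
  rw [pureQ_eq298, pureQ_eq298, hp T S hTS f₀ (fun _ _ => 1) h]

end Lemmas

variable {F : Type} [Field F] [NumberField F]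

/-- **THE TOP OF THE SECOND CUT over `ℚ`.** -/
theorem cutIntQC_of298 (h3 : HasSqrtNegThree F) (hT6 : T6.T6Out) (hgood : GoodSetC305 ℚ F)
    (hunit : UnitMatchQC298 F) (hpure : PureExtC305 ℚ) (hpure' : PureExtC305 F)
    (hmeas : LocMeasC305) (hcut : LocCutC305) (harch : ArchMeasRC298)
    (htor : TorSplitQC298) (hdown : FactDownQC298) (hup : FactUpQC298 F)
    (hvan : LocVanC305) (hvanr : ArchVanQC298) (hnn : NonNormLocQC298 F) :
    CutIntQC298 F := by
  classical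
  intro hiq D hD hcyc hl2 ι hι μr hμr μc hμc T₀ hun n m hlev
  obtain ⟨cG, hcG, hdn⟩ := hdown D.R hD.frame μr hμr T₀ m hlev.1
  obtain ⟨cG', hcG', hupp⟩ := hup hT6 hiq D hD hcyc hl2 ι hι μr hμr μc hμc T₀ hun n m hlev
  have hloc : T6.InstLocalC := hT6.2.2.2.2.2.1
  refine ⟨((cG' / cG : ℝ) : ℂ), ?_, ?_⟩
  · exact_mod_cast (div_pos hcG' hcG).ne'
  intro T T' hT₀T hTT' φ₀ Φ f₀ F0 F1 hlocT
  have hcont : Continuous (fun g => F0 g + F1 g) :=
    hlocT.arch_down0.cont.add hlocT.arch_down1.cont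
  have hsupp : HasCompactSupport (fun g => F0 g + F1 g) :=
    hlocT.arch_down0.supp.add hlocT.arch_down1.supp
  constructor
  · -- the norms
    intro δ γ hell hN μT μT' hμT hμT' hlink
    obtain ⟨S, S', hTS, hSS', hgγ, hiδ⟩ := hgood γ δ hell T
    have hlocS := hunit hT6 hiq D hD hcyc hl2 μr hμr μc hμc T₀ hun n m hlev T S T' S' hT₀T hTS
      hTT' hSS' φ₀ Φ f₀ F0 F1 hlocT
    obtain ⟨L, hL⟩ := exists_locDataQ298 hT6 hmeas hcut harch m hell
    obtain ⟨cT, hcT, hTC⟩ := htor γ hell μT hμT L hL.tor hL.torr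
    obtain ⟨hβ, hval⟩ := hdn S (hT₀T.trans hTS) (ext305 T f₀) (fun g => F0 g + F1 g)
      hlocS.inv_down hcont hsupp γ hell hgγ μT hμT L cT hL hcT hTC
    obtain ⟨β', hβ', hval'⟩ := hupp S S' (hT₀T.trans hTS) hSS' (ext305 T' φ₀) Φ (ext305 T f₀)
      F0 F1 hlocS δ γ hell hN hgγ hiδ μT μT' hμT hμT' hlink L cT hL hcT hTC
    rw [pureQ_ext_fun298 hpure hTS] at hβ hval
    rw [pure_ext_fun305 hpure' (over_mono305 hTS hTT' hSS')] at hβ' hval'
    refine ⟨β', prodCutQ298 S cT L, hβ', hβ, ?_⟩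
    have h1 : cG ≠ 0 := hcG.ne'
    have h2 : cT ≠ 0 := hcT.ne'
    have h4 : cG' / cT = cG' / cG * (cG / cT) := by field_simp
    rw [hval', hval, ← mul_assoc, ← Complex.ofReal_mul, ← h4]
  · -- the elements which are not norms
    intro γ hell hnot μT hμT
    rcases hnn hT6 hiq h3 D hD hcyc hl2 γ hell hnot with
      ⟨v, w, e, i, sw, hvw, huniq, hi, hsw, hext, hnorm⟩ | hreal
    · -- a finite place
      obtain ⟨S, S', hTS, hSS', hgγ, -⟩ := hgood γ 1 hell (insert v T)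
      have hTS' : T ⊆ S := (Finset.subset_insert v T).trans hTS
      have hvS : v ∈ S := hTS (Finset.mem_insert_self v T)
      have hlocS := hunit hT6 hiq D hD hcyc hl2 μr hμr μc hμc T₀ hun n m hlev T S T' S' hT₀T
        hTS' hTT' hSS' φ₀ Φ f₀ F0 F1 hlocT
      obtain ⟨L, hL⟩ := exists_locDataQ298 hT6 hmeas hcut harch m hell
      obtain ⟨cT, hcT, hTC⟩ := htor γ hell μT hμT L hL.tor hL.torr
      obtain ⟨hβ, hval⟩ := hdn S (hT₀T.trans hTS') (ext305 T f₀) (fun g => F0 g + F1 g)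
        hlocS.inv_down hcont hsupp γ hell hgγ μT hμT L cT hL hcT hTC
      rw [pureQ_ext_fun298 hpure hTS'] at hβ hval
      refine ⟨prodCutQ298 S cT L, hβ, ?_⟩
      rw [hval]
      have hzero : locInt305 (L.μv v) (L.βv v) (ext305 T f₀ v) (locG305 v γ) = 0 := by
        refine hvan hT6 (v.adicCompletion ℚ) _ (hloc ℚ v) (m v) (ext305 T f₀ v)
          (hlocS.inv_down v hvS).1 (hlocS.inv_down v hvS).2 (locG305 v γ) (isReg_locG305 hell v)
          ?_ (L.μv v) (hL.haar v) (L.μt v) (hL.tor v) (L.βv v) (hL.cut v)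
        intro c' hc'
        exact ((hlocS.inert v hvS w hvw huniq e i sw hi hsw hext).2 (locG305 v γ) c'
          (isReg_locG305 hell v) hnorm hc')
      have hfact : factValQ298 D.R.r S L (ext305 T f₀) μr (fun g => F0 g + F1 g) = 0 := by
        unfold factValQ298
        rw [Finset.prod_eq_zero hvS hzero]
        simp
      rw [hfact, mul_zero]
    · -- the real place
      obtain ⟨S, S', hTS, hSS', hgγ, -⟩ := hgood γ 1 hell T
      have hlocS := hunit hT6 hiq D hD hcyc hl2 μr hμr μc hμc T₀ hun n m hlev T S T' S' hT₀T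
        hTS hTT' hSS' φ₀ Φ f₀ F0 F1 hlocT
      obtain ⟨L, hL⟩ := exists_locDataQ298 hT6 hmeas hcut harch m hell
      obtain ⟨cT, hcT, hTC⟩ := htor γ hell μT hμT L hL.tor hL.torr
      obtain ⟨hβ, hval⟩ := hdn S (hT₀T.trans hTS) (ext305 T f₀) (fun g => F0 g + F1 g)
        hlocS.inv_down hcont hsupp γ hell hgγ μT hμT L cT hL hcT hTC
      rw [pureQ_ext_fun298 hpure hTS] at hβ hval
      refine ⟨prodCutQ298 S cT L, hβ, ?_⟩
      rw [hval]
      obtain ⟨w₀⟩ : Nonempty (InfinitePlace F) := inferInstance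
      have hzero : ∀ j : ℤ,
          locInt305 μr L.βr (fun g => F0 g + F1 g) (reGLQ298 (T5.ratG γ * D.R.r ^ j)) = 0 :=
        fun j => hvanr D.R hD.frame μr μc (Φ w₀) (fun g => F0 g + F1 g) (hlocT.arch w₀) γ hell
          hreal L.μtr L.βr hL.torr hL.cutr j
      have hfact : factValQ298 D.R.r S L (ext305 T f₀) μr (fun g => F0 g + F1 g) = 0 := by
        unfold factValQ298
        simp only [hzero, mul_zero, tsum_zero]
      rw [hfact, mul_zero]

end Fermat.Agent.LT.T7.MQ298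

end
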