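import Mathlib
import Fermat.Agent.LT.T7.H751.FactDownQTop
import Fermat.Agent.LT.T7.H941.SuppDown
import Fermat.Agent.LT.T7.H729.OutOpen
import Fermat.Agent.LT.T7.H409.CompCont
import Fermat.Agent.LT.T7.H296.TorCommId
import Fermat.Agent.LT.T7.H296.BiInvCont
import Fermat.Agent.LT.T7.H505.HaarSigma
import Fermat.Agent.LT.T7.H379.HaarSplitQ
import Fermat.Agent.LT.T7.H325.ReContQ
import Fermat.Agent.LT.T7.H777.SuppOutQ
import Fermat.Agent.LT.T7.H949.CutOnOutQ
import Fermat.Agent.LT.T7.H78.RayFinQ
import Fermat.Agent.LT.T7.H453.PtFactQ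
import Fermat.Agent.LT.T7.H560.ArchIntblR
import Fermat.Agent.LT.T7.H567.HaarSigmaR

/-!
# Row LT, tower T7, node Q2.7.7 `MQ298.FactDownQC298` (cut and tops: helper751): CLOSED

OFF-MAIN.  Complete proof, nothing assumed.  ADDITIVE.  Integration by helper298 (owner of the
parent node, rows 2464 / 2605) of the top `H751.factDownQC_of751` (helper751@9f5415940) with the
fourteen closed leaves, vendored byte-identical in ONE closure:

* cubic leaves with `K = ℚ`: `suppDownC941` (helper941), `outOpenC729` (helper729),
  `compContC409` (helper409), `torCommIdC296`, `biInvContC296` (helper296), `haarSigmaC505`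
  (helper505);
* `haarSplitQC379` (helper379);
* leaves of the cut of helper751: `reContQC325` (helper325), `suppOutQC777` (helper777),
  `cutOnOutQC949` (helper949), `rayFinQC78` (helper78), `ptFactQC453` (helper453),
  `archIntblRC560` (helper560), `haarSigmaRC567` (helper567).

    factDownQC_closed298 : MQ298.FactDownQC298                      (UNCONDITIONAL)
-/

set_option autoImplicit false

open AutomorphicForm IsDedekindDomain NumberField MeasureTheory

noncomputable section

namespace Fermat.Agent.LT.T7.MQ298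

open Fermat.Agent.LT.H556 Fermat.Agent.LT.H556.A0 Fermat.Agent.LT.T7 Fermat.Agent.LT.T7.H305

/-- **THE NODE `FactDownQC298`, CLOSED.** -/
theorem factDownQC_closed298 : FactDownQC298 :=
  H751.factDownQC_of751 (H941.suppDownC941 ℚ) (OutOpen729.outOpenC729 ℚ)
    (H409.compContC409 (K := ℚ)) (H296.torCommIdC296 (K := ℚ)) (H296.biInvContC296 (K := ℚ))
    (H505.haarSigmaC505 (K := ℚ)) H379.haarSplitQC379 H325.reContQC325 H777.suppOutQC777
    H949.cutOnOutQC949 H78.rayFinQC78 H453.PtFactQ.ptFactQC453 H560.archIntblRC560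
    H567.haarSigmaRC567

end Fermat.Agent.LT.T7.MQ298

end
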