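import Mathlib
import Fermat.Agent.LT.T7.H298.MatchQSpec

/-!
# Row LT, tower T7, node T7.L2Q.1.H1 (registry rows 2464 / 2605, owner helper298):
# THE MATCHING THEOREM OVER `ℚ` -- Spec, v2 (split clause for ONE enumeration)

OFF-MAIN.  Definitions and frozen Props only.  No hole, nothing assumed.  ADDITIVE:
`MatchQSpec.lean` (v1, sha256 53f6570a) is unchanged and imported; the names of v2 end in
`298b`.

## WHY v2

`LocHypQ298.split` (copied from `H305.LocHyp305.split`) asks `f₀ v = φ₀ (w 0) * φ₀ (w 1)` for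
EVERY enumeration of the two places over a split place `v`, i.e. for both orders of the product.
At a BAD split place the components upstairs are double coset functions of an arbitrary element
and do not commute (audit helper248; helper893 `T7/H893/SupplyConstrSpec2.lean`, v2 of the fifth
cut of the cubic step): the families of the construction cannot satisfy `LocHypQ298`.  The
matching theorem needs ONE enumeration only (`T6.SplitMatchC`, the split integral identity).

`LocHypQ298b` = `LocHypQ298` with the split clause for SOME enumeration (the form of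
`H893.LocHyp893`); `CutIntQC298b`, `IsMatchConstQ298b`, `GlobMatchQC298b` = the nodes of v1 for
`LocHypQ298b`.  The leaves of the first cut (`UnfoldGC298`, `IotaQC298`, `TorMeasQC298`,
`TorCompQC298`) do not mention the local hypotheses: UNCHANGED.
-/

set_option autoImplicit false

open AutomorphicForm IsDedekindDomain NumberField MeasureTheory
open scoped ComplexConjugate

noncomputable section

namespace Fermat.Agent.LT.T7.MQ298

open Fermat.Agent.LT.H556 Fermat.Agent.LT.H556.A0 Fermat.Agent.LT.T7 Fermat.Agent.LT.T7.H305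

attribute [local instance] Fermat.Agent.LT.T5.instMeasurableSpaceG

section TwoFields2

variable {F : Type} [Field F] [NumberField F]

/-- **THE LOCAL HYPOTHESES over `ℚ`, v2** (local matching in the form of T6).  The clauses are
those of `LocHypQ298` (verbatim) except `split`: at a place `v ∈ T` with two places over it there
is ONE enumeration `w 0, w 1` of the places over `v` (`w j = σ(w (j+1))`) and identifications
`i j : ℚ_v ≃ F_{w j}` such that the levels agree and `f₀ v = φ₀ (w 0) * φ₀ (w 1)` (the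
hypothesis of `T6.SplitMatchC`; the form of `H893.LocHyp893`, helper893).  Archimedean clauses: `Φ w` is a bi-`U(2)`-invariant test function on `GL₂(ℂ)`, `F0` a
test function of weight `0` and `F1` a test function of weight `-1` on `GL₂(ℝ)`, and `F0 + F1`
is matched with `Φ w` for the Haar measures `μr`, `μc` (`T6.IsArchMatch`). -/
structure LocHypQ298b (D : CompData ℚ F) (μr : @Measure (GL (Fin 2) ℝ) (borel _))
    (μc : @Measure (GL (Fin 2) ℂ) (borel _))
    (T : Finset (HeightOneSpectrum (𝓞 ℚ)))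
    (n : HeightOneSpectrum (𝓞 F) → ℕ) (m : HeightOneSpectrum (𝓞 ℚ) → ℕ)
    (φ₀ : ∀ w : HeightOneSpectrum (𝓞 F), GL (Fin 2) (w.adicCompletion F) → ℂ)
    (Φ : InfinitePlace F → GL (Fin 2) ℂ → ℂ)
    (f₀ : ∀ v : HeightOneSpectrum (𝓞 ℚ), GL (Fin 2) (v.adicCompletion ℚ) → ℂ)
    (F0 F1 : GL (Fin 2) ℝ → ℂ) : Prop where
  inv_up : ∀ v ∈ T, ∀ w : HeightOneSpectrum (𝓞 F), PlaceOver ℚ F v w →
    T6.IsBiInv (T6.InU (n w)) (φ₀ w) ∧ T6.HasFinSupp (T6.InU (n w)) (φ₀ w)
  inv_down : ∀ v ∈ T, T6.IsBiInv (T6.InU (m v)) (f₀ v) ∧ T6.HasFinSupp (T6.InU (m v)) (f₀ v)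
  arch_up : ∀ w : InfinitePlace F, T6.IsArchTestC (Φ w)
  arch_down0 : T6.IsArchTestR 0 F0
  arch_down1 : T6.IsArchTestR (-1) F1
  inert : ∀ v ∈ T, ∀ w : HeightOneSpectrum (𝓞 F), PlaceOver ℚ F v w →
    (∀ w' : HeightOneSpectrum (𝓞 F), PlaceOver ℚ F v w' → w' = w) →
    ∀ (e : ℕ) (i : v.adicCompletion ℚ →+* w.adicCompletion F)
      (sw : w.adicCompletion F ≃+* w.adicCompletion F),
      (∀ x : ℚ, i (algebraMap ℚ (v.adicCompletion ℚ) x)
        = algebraMap F (w.adicCompletion F) (algebraMap ℚ F x)) →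
      (∀ y : F, sw (algebraMap F (w.adicCompletion F) y)
        = algebraMap F (w.adicCompletion F) (D.s.σ y)) →
      T6.IsLocalExt (v.adicCompletion ℚ) (w.adicCompletion F) D.l e i sw →
      (∀ (δ : GL (Fin 2) (w.adicCompletion F)) (γ : GL (Fin 2) (v.adicCompletion ℚ))
          (c c' : ℂ), T6.IsReg γ →
          IsConj (T6.twNorm sw D.l δ) (Matrix.GeneralLinearGroup.map i γ) →
          T6.IsTwOrbSum sw (n w) (φ₀ w) δ c → T6.IsOrbSum (m v) (f₀ v) γ c' → c = c') ∧
        ∀ (γ : GL (Fin 2) (v.adicCompletion ℚ)) (c' : ℂ), T6.IsReg γ →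
          ¬ T6.IsNormFrom D.l i sw γ → T6.IsOrbSum (m v) (f₀ v) γ c' → c' = 0
  split : ∀ v ∈ T, (∃ w₁ w₂ : HeightOneSpectrum (𝓞 F),
      PlaceOver ℚ F v w₁ ∧ PlaceOver ℚ F v w₂ ∧ w₁ ≠ w₂) →
    ∃ (w : ℕ → HeightOneSpectrum (𝓞 F))
      (i : ∀ j : ℕ, v.adicCompletion ℚ ≃+* (w j).adicCompletion F),
      (∀ j : ℕ, PlaceOver ℚ F v (w j)) ∧ (∀ j : ℕ, T5.PlaceRel D.s (w (j + 1)) (w j)) ∧
      (∀ j : ℕ, 0 < j → j < D.l → w j ≠ w 0) ∧
      (∀ (j : ℕ) (x : ℚ), i j (algebraMap ℚ (v.adicCompletion ℚ) x)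
        = algebraMap F ((w j).adicCompletion F) (algebraMap ℚ F x)) ∧
      (∀ (j : ℕ) (x : v.adicCompletion ℚ), Valued.v (i j x) = Valued.v x) ∧
      (∀ j : ℕ, n (w j) = m v) ∧
        T6.IsConvProd (T6.InU (m v)) D.l
          (fun j g => φ₀ (w j)
            (Matrix.GeneralLinearGroup.map ((i j : v.adicCompletion ℚ ≃+* _) :
              v.adicCompletion ℚ →+* (w j).adicCompletion F) g))
          (f₀ v)
  arch : ∀ w : InfinitePlace F, T6.IsArchMatch μr μc (Φ w) (fun g => F0 g + F1 g)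

variable (F)

/-- **NODE Q2.7, v2 = CUT-INT over `ℚ` (the core)**, for `LocHypQ298b`.  Mirror of `H305.CutIntC305`: for locally
matched pure tensors and linked torus measures there are cut-off functions upstairs and
downstairs for which the cut-off integrals agree up to the constant `κ`; downstairs the cut-off
integral vanishes (for a suitable cut-off) if `γ` is not a norm.  The member downstairs is the
pure tensor with archimedean component `F0 + F1`. -/
def CutIntQC298b : Prop :=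
  IsImagQuad F →
    ∀ D : CompData ℚ F, IsCompData D → IsCycExt ℚ F D.l → D.l = 2 →
    ∀ ι : Adl ℚ →+* Adl F, IsAdeleBase305 D.s D.l ι →
    ∀ μr : @Measure (GL (Fin 2) ℝ) (borel _), @Measure.IsHaarMeasure _ _ _ (borel _) μr →
    ∀ μc : @Measure (GL (Fin 2) ℂ) (borel _), @Measure.IsHaarMeasure _ _ _ (borel _) μc →
    ∀ (T₀ : Finset (HeightOneSpectrum (𝓞 ℚ))), UnramOut305 (K' := F) T₀ →
    ∀ (n : HeightOneSpectrum (𝓞 F) → ℕ) (m : HeightOneSpectrum (𝓞 ℚ) → ℕ),
      IsLevelAt305 T₀ n m →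
    ∃ κ : ℂ, κ ≠ 0 ∧
      ∀ (T : Finset (HeightOneSpectrum (𝓞 ℚ))) (T' : Finset (HeightOneSpectrum (𝓞 F))),
        T₀ ⊆ T → IsOver305 T T' →
      ∀ (φ₀ : ∀ w : HeightOneSpectrum (𝓞 F), GL (Fin 2) (w.adicCompletion F) → ℂ)
        (Φ : InfinitePlace F → GL (Fin 2) ℂ → ℂ)
        (f₀ : ∀ v : HeightOneSpectrum (𝓞 ℚ), GL (Fin 2) (v.adicCompletion ℚ) → ℂ)
        (F0 F1 : GL (Fin 2) ℝ → ℂ),
        LocHypQ298b D μr μc T n m φ₀ Φ f₀ F0 F1 →
        (∀ (δ : GL (Fin 2) F) (γ : GL (Fin 2) ℚ), T6.IsEll γ →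
          D.s.normUpTo D.l δ = Matrix.GeneralLinearGroup.map (algebraMap ℚ F) γ →
          ∀ (μT : @Measure (tA305 (T5.AdelicAut.id ℚ) γ) (borel _))
            (μT' : @Measure (tA305 D.s δ) (borel _)),
            @Measure.IsHaarMeasure _ _ _ (borel _) μT →
            @Measure.IsHaarMeasure _ _ _ (borel _) μT' →
            IsTorLinked305 ι D.s δ γ μT μT' →
            ∃ β' : G F → ℝ, ∃ β : G ℚ → ℝ,
              IsCutOn305 D.s δ μT' β'
                {x | T5.twTerm D.R'.r D.s (pure305 T' φ₀ Φ) δ x ≠ 0} ∧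
              IsCutOn305 (T5.AdelicAut.id ℚ) γ μT β
                {x | T5.twTerm D.R.r (T5.AdelicAut.id ℚ)
                  (pureQ298 T f₀ (fun g => F0 g + F1 g)) γ x ≠ 0} ∧
              cutInt305 D.R'.r D.s (pure305 T' φ₀ Φ) δ D.R'.μ β'
                = κ * cutInt305 D.R.r (T5.AdelicAut.id ℚ)
                    (pureQ298 T f₀ (fun g => F0 g + F1 g)) γ D.R.μ β) ∧
        ∀ γ : GL (Fin 2) ℚ, T6.IsEll γ → (¬ ∃ δ : GL (Fin 2) F, IsNormOf D δ γ) →
          ∀ μT : @Measure (tA305 (T5.AdelicAut.id ℚ) γ) (borel _),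
            @Measure.IsHaarMeasure _ _ _ (borel _) μT →
            ∃ β : G ℚ → ℝ,
              IsCutOn305 (T5.AdelicAut.id ℚ) γ μT β
                {x | T5.twTerm D.R.r (T5.AdelicAut.id ℚ)
                  (pureQ298 T f₀ (fun g => F0 g + F1 g)) γ x ≠ 0} ∧
              cutInt305 D.R.r (T5.AdelicAut.id ℚ)
                (pureQ298 T f₀ (fun g => F0 g + F1 g)) γ D.R.μ β = 0

/-- **`κ` IS A MATCHING CONSTANT, v2** (for `LocHypQ298b`) for the data `(D, μr, μc, T₀, n, m)`: for all `T ⊇ T₀` and all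
locally matched components, the pure tensor upstairs is matched (`T7.IsGlobMatch D`) with the SUM
of `κ` times the two pure tensors downstairs (weights `0` and `-1`), as soon as the three
functions are continuous with compact support. -/
def IsMatchConstQ298b (D : CompData ℚ F) (μr : @Measure (GL (Fin 2) ℝ) (borel _))
    (μc : @Measure (GL (Fin 2) ℂ) (borel _)) (T₀ : Finset (HeightOneSpectrum (𝓞 ℚ)))
    (n : HeightOneSpectrum (𝓞 F) → ℕ) (m : HeightOneSpectrum (𝓞 ℚ) → ℕ) (κ : ℂ) : Prop :=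
  ∀ (T : Finset (HeightOneSpectrum (𝓞 ℚ))) (T' : Finset (HeightOneSpectrum (𝓞 F))),
    T₀ ⊆ T → IsOver305 T T' →
  ∀ (φ₀ : ∀ w : HeightOneSpectrum (𝓞 F), GL (Fin 2) (w.adicCompletion F) → ℂ)
    (Φ : InfinitePlace F → GL (Fin 2) ℂ → ℂ)
    (f₀ : ∀ v : HeightOneSpectrum (𝓞 ℚ), GL (Fin 2) (v.adicCompletion ℚ) → ℂ)
    (F0 F1 : GL (Fin 2) ℝ → ℂ),
    LocHypQ298b D μr μc T n m φ₀ Φ f₀ F0 F1 →
    ∀ (φ' : G F → ℂ) (f0 f1 : G ℚ → ℂ),
      (∀ h : G F, φ' h = pure305 T' φ₀ Φ h) →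
      (∀ h : G ℚ, f0 h = κ * pureQ298 T f₀ F0 h) →
      (∀ h : G ℚ, f1 h = κ * pureQ298 T f₀ F1 h) →
      T5.IsTestFn D.𝔑 T5.trivType φ' →
      Continuous f0 → HasCompactSupport f0 → Continuous f1 → HasCompactSupport f1 →
      IsGlobMatch D φ' (fun x => f0 x + f1 x)

/-- **THE NODE Q2, v2 = GLOBAL MATCHING FROM LOCAL MATCHING over `ℚ`** (for `LocHypQ298b`).  For the data of the
comparison `F/ℚ`, Haar measures `μr` of `GL₂(ℝ)` and `μc` of `GL₂(ℂ)`, a base set `T₀` outside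
which `F/ℚ` is unramified and the levels are `0`: there is a matching constant `κ ≠ 0`. -/
def GlobMatchQC298b : Prop :=
  IsImagQuad F →
    ∀ D : CompData ℚ F, IsCompData D → IsCycExt ℚ F D.l → D.l = 2 →
    ∀ μr : @Measure (GL (Fin 2) ℝ) (borel _), @Measure.IsHaarMeasure _ _ _ (borel _) μr →
    ∀ μc : @Measure (GL (Fin 2) ℂ) (borel _), @Measure.IsHaarMeasure _ _ _ (borel _) μc →
    ∀ (T₀ : Finset (HeightOneSpectrum (𝓞 ℚ))), UnramOut305 (K' := F) T₀ →
    ∀ (n : HeightOneSpectrum (𝓞 F) → ℕ) (m : HeightOneSpectrum (𝓞 ℚ) → ℕ),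
      IsLevelAt305 T₀ n m →
    ∃ κ : ℂ, κ ≠ 0 ∧ IsMatchConstQ298b F D μr μc T₀ n m κ

end TwoFields2

/-! ## Appendix: the equation lemmas of the definitions of this file are realised HERE -/

theorem eqns_realised_matchQSpec298b : True := by
  have _h7 := @CutIntQC298b.eq_1
  have _h8 := @IsMatchConstQ298b.eq_1
  have _h9 := @GlobMatchQC298b.eq_1
  have _g7 := @CutIntQC298b.eq_def
  have _g8 := @IsMatchConstQ298b.eq_def
  have _g9 := @GlobMatchQC298b.eq_def
  have _u7 := @CutIntQC298b.eq_unfold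
  have _u8 := @IsMatchConstQ298b.eq_unfold
  have _u9 := @GlobMatchQC298b.eq_unfold
  trivial

end Fermat.Agent.LT.T7.MQ298

end
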