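import Mathlib
import Fermat.Agent.LT.T7.H298.MatchQCut
import Fermat.Agent.LT.T7.H298.MatchQSpec2

/-!
# Row LT, tower T7, node Q2.7 `CutIntQC298b` (registry row 2605, owner helper298):
# SECOND CUT over `ℚ` -- Spec, v2 (split clause for ONE enumeration)

OFF-MAIN.  Frozen Props only (the proved top is `MatchQCutTop2.lean`).  No hole, nothing
assumed.  ADDITIVE: `MatchQCut.lean` (v1, sha256 74dc2a3c) is unchanged and imported; the TWO
Props which mention the local hypotheses are restated for `LocHypQ298b` (`MatchQSpec2.lean`):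

* **`UnitMatchQC298b F`** [M] = `UnitMatchQC298 F` for `LocHypQ298b`;
* **`FactUpQC298b F`** [XL node] = `FactUpQC298 F` for `LocHypQ298b`.

ALL OTHER leaves and nodes of the second cut are UNCHANGED (`ArchMeasRC298`, `ArchVanQC298`,
`NonNormLocQC298`, `TorSplitQC298`, `HaarSplitQC298`, `FactDownQC298` and the cubic leaves reused
verbatim).

    cutIntQC_of298b : HasSqrtNegThree F → T6.T6Out → GoodSetC305 ℚ F → UnitMatchQC298b F →
        PureExtC305 ℚ → PureExtC305 F → LocMeasC305 → LocCutC305 → ArchMeasRC298 →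
        TorSplitQC298 → FactDownQC298 → FactUpQC298b F → LocVanC305 → ArchVanQC298 →
        NonNormLocQC298 F → CutIntQC298b F
-/

set_option autoImplicit false

open AutomorphicForm IsDedekindDomain NumberField MeasureTheory
open scoped ComplexConjugate

noncomputable section

namespace Fermat.Agent.LT.T7.MQ298

open Fermat.Agent.LT.H556 Fermat.Agent.LT.H556.A0 Fermat.Agent.LT.T7 Fermat.Agent.LT.T7.H305

attribute [local instance] Fermat.Agent.LT.T5.instMeasurableSpaceG

section TwoFieldsCutQ2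

variable (F : Type) [Field F] [NumberField F]

/-- **LEAF Q2.7.11 = UNIT-MATCH over `ℚ`** (the fundamental lemma for the unit element).  Mirror
of `H305.UnitMatchC305` for `LocHypQ298b` (v2): if `T₀ ⊆ T ⊆ S`, the places outside `T₀` are unramified
and the levels are `0` there, the local hypotheses for `T` give the local hypotheses for `S`
with unit components at the new places.  (The archimedean clauses do not change.  At a new
place with two places over it: the enumeration from `T6.InstSplitC`, unit components.) -/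
def UnitMatchQC298b : Prop :=
  T6.T6Out → IsImagQuad F →
  ∀ D : CompData ℚ F, IsCompData D → IsCycExt ℚ F D.l → D.l = 2 →
    ∀ μr : @Measure (GL (Fin 2) ℝ) (borel _), @Measure.IsHaarMeasure _ _ _ (borel _) μr →
    ∀ μc : @Measure (GL (Fin 2) ℂ) (borel _), @Measure.IsHaarMeasure _ _ _ (borel _) μc →
    ∀ (T₀ : Finset (HeightOneSpectrum (𝓞 ℚ))), UnramOut305 (K' := F) T₀ →
    ∀ (n : HeightOneSpectrum (𝓞 F) → ℕ) (m : HeightOneSpectrum (𝓞 ℚ) → ℕ),
      IsLevelAt305 T₀ n m →
    ∀ (T S : Finset (HeightOneSpectrum (𝓞 ℚ))) (T' S' : Finset (HeightOneSpectrum (𝓞 F))),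
      T₀ ⊆ T → T ⊆ S → IsOver305 T T' → IsOver305 S S' →
    ∀ (φ₀ : ∀ w : HeightOneSpectrum (𝓞 F), GL (Fin 2) (w.adicCompletion F) → ℂ)
      (Φ : InfinitePlace F → GL (Fin 2) ℂ → ℂ)
      (f₀ : ∀ v : HeightOneSpectrum (𝓞 ℚ), GL (Fin 2) (v.adicCompletion ℚ) → ℂ)
      (F0 F1 : GL (Fin 2) ℝ → ℂ),
      LocHypQ298b D μr μc T n m φ₀ Φ f₀ F0 F1 →
      LocHypQ298b D μr μc S n m (ext305 T' φ₀) Φ (ext305 T f₀) F0 F1

/-- **NODE Q2.7.13 = FACT-UP over `ℚ`** (the factorisation upstairs, with local matching).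
Mirror of `H305.FactUpC305`: for a suitable cut-off `β'` upstairs and linked torus measures,

    ∫ φ'♭(y⁻¹ δ σ(y)) β'(y) dμ'(y) = (c'_G / c_T) ∑_j ∏_{v ∈ S} I_v · I_∞(j)

with THE SAME local integrals downstairs (`factValQ298` for `Fr = F0 + F1`).  The constant
`c'_G` depends on `D`, `ι`, `μr`, `μc`, `T₀`, `n`, `m` only.
Proof.  As `FactUpC305` (at the split places: the enumeration of `LocHypQ298b.split`); at the infinite place: `F` has ONE infinite place `w`, complex, the
conjugation of `F` is the complex conjugation in the coordinate of `w`; `N(δ r'^j) = γ ι(r)^j`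
(`t'⁴ = 2`, `t'² = t`); `β'_∞` a continuous cut-off function on `GL₂(ℂ)` for the image of the
centraliser of `γ_∞` with the image of `μtr` (exists: `H305.ArchMeasC305` form,
`exists_cutoff584`); FIRST clause of `LocHypQ298b.arch` (`T6.IsArchMatch`) for `(γ r^j)_∞`,
`(δ r'^j)_w` and the cut-off data transported to the centraliser of `(γ r^j)_∞` (the same
subgroup). -/
def FactUpQC298b : Prop :=
  T6.T6Out → IsImagQuad F →
  ∀ D : CompData ℚ F, IsCompData D → IsCycExt ℚ F D.l → D.l = 2 →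
    ∀ ι : Adl ℚ →+* Adl F, IsAdeleBase305 D.s D.l ι →
    ∀ μr : @Measure (GL (Fin 2) ℝ) (borel _), @Measure.IsHaarMeasure _ _ _ (borel _) μr →
    ∀ μc : @Measure (GL (Fin 2) ℂ) (borel _), @Measure.IsHaarMeasure _ _ _ (borel _) μc →
    ∀ (T₀ : Finset (HeightOneSpectrum (𝓞 ℚ))), UnramOut305 (K' := F) T₀ →
    ∀ (n : HeightOneSpectrum (𝓞 F) → ℕ) (m : HeightOneSpectrum (𝓞 ℚ) → ℕ),
      IsLevelAt305 T₀ n m →
    ∃ cG' : ℝ, 0 < cG' ∧
      ∀ (S : Finset (HeightOneSpectrum (𝓞 ℚ))) (S' : Finset (HeightOneSpectrum (𝓞 F))),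
        T₀ ⊆ S → IsOver305 S S' →
      ∀ (φ₀ : ∀ w : HeightOneSpectrum (𝓞 F), GL (Fin 2) (w.adicCompletion F) → ℂ)
        (Φ : InfinitePlace F → GL (Fin 2) ℂ → ℂ)
        (f₀ : ∀ v : HeightOneSpectrum (𝓞 ℚ), GL (Fin 2) (v.adicCompletion ℚ) → ℂ)
        (F0 F1 : GL (Fin 2) ℝ → ℂ),
        LocHypQ298b D μr μc S n m φ₀ Φ f₀ F0 F1 →
      ∀ (δ : GL (Fin 2) F) (γ : GL (Fin 2) ℚ), T6.IsEll γ →
        D.s.normUpTo D.l δ = Matrix.GeneralLinearGroup.map (algebraMap ℚ F) γ →
        GoodOut305 S γ → IntOut305 S' δ →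
      ∀ (μT : @Measure (tA305 (T5.AdelicAut.id ℚ) γ) (borel _))
        (μT' : @Measure (tA305 D.s δ) (borel _)),
        @Measure.IsHaarMeasure _ _ _ (borel _) μT →
        @Measure.IsHaarMeasure _ _ _ (borel _) μT' →
        IsTorLinked305 ι D.s δ γ μT μT' →
      ∀ (L : LocDataQ298 γ) (cT : ℝ), IsLocDataQ298 m L → 0 < cT → IsTorConstQ298 γ μT L cT →
        ∃ β' : G F → ℝ,
          IsCutOn305 D.s δ μT' β'
              {x | T5.twTerm D.R'.r D.s (pure305 S' φ₀ Φ) δ x ≠ 0} ∧
            cutInt305 D.R'.r D.s (pure305 S' φ₀ Φ) δ D.R'.μ β'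
              = ((cG' / cT : ℝ) : ℂ) *
                factValQ298 D.R.r S L f₀ μr (fun g => F0 g + F1 g)

end TwoFieldsCutQ2

/-! ## Appendix: the equation lemmas of the definitions of this file are realised HERE -/

theorem eqns_realised_matchQCut298b : True := by
  have _h9 := @UnitMatchQC298b.eq_1
  have _h11 := @FactUpQC298b.eq_1
  have _g9 := @UnitMatchQC298b.eq_def
  have _g11 := @FactUpQC298b.eq_def
  have _u9 := @UnitMatchQC298b.eq_unfold
  have _u11 := @FactUpQC298b.eq_unfold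
  trivial

end Fermat.Agent.LT.T7.MQ298

end
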