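import Mathlib
import Fermat.Agent.LT.T7.H305.MatchTop
import Fermat.Agent.LT.T7.H298.MatchQSpec

/-!
# Row LT, tower T7, node T7.L2Q.1.H1 `GlobQC732` (registry row 2464, owner helper298):
# THE MATCHING THEOREM OVER `ℚ` -- FIRST CUT, the proved top

OFF-MAIN.  Complete proof, nothing assumed.

    globMatchQ_of298 : IotaQC298 F → UnfoldGC298 ℚ → UnfoldC305 F → TorCommC305 ℚ →
        TorCommC305 F → TwistRepC305 F → EllRegC305 ℚ F → TorHaarC305 ℚ → TorMeasQC298 F →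
        TorCompQC298 F → CutIntQC298 F → GlobMatchQC298 F

The constant of the node is `κ = κ₀ / 2`, `κ₀` the constant of `CutIntQC298`.  Mirror of
`H305.globMatch_of305` (helper305).
-/

set_option autoImplicit false

open AutomorphicForm IsDedekindDomain NumberField MeasureTheory
open scoped ComplexConjugate

noncomputable section

namespace Fermat.Agent.LT.T7.MQ298

open Fermat.Agent.LT.H556 Fermat.Agent.LT.H556.A0 Fermat.Agent.LT.T7 Fermat.Agent.LT.T7.H305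

attribute [local instance] Fermat.Agent.LT.T5.instMeasurableSpaceG

/-- The pure tensor over `ℚ` is additive in the archimedean component. -/
theorem pureQ_add298 (T : Finset (HeightOneSpectrum (𝓞 ℚ)))
    (f₀ : ∀ v : HeightOneSpectrum (𝓞 ℚ), GL (Fin 2) (v.adicCompletion ℚ) → ℂ)
    (F0 F1 : GL (Fin 2) ℝ → ℂ) (h : G ℚ) :
    pureQ298 T f₀ (fun g => F0 g + F1 g) h = pureQ298 T f₀ F0 h + pureQ298 T f₀ F1 h := by
  unfold pureQ298
  by_cases hT : OutT305 T h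
  · simp only [if_pos hT]
    ring
  · simp only [if_neg hT, add_zero]

/-- The sum of the two members downstairs is `κ` times the pure tensor with archimedean
component `F0 + F1`. -/
theorem sum_eq_pureQ298 (T : Finset (HeightOneSpectrum (𝓞 ℚ)))
    (f₀ : ∀ v : HeightOneSpectrum (𝓞 ℚ), GL (Fin 2) (v.adicCompletion ℚ) → ℂ)
    (F0 F1 : GL (Fin 2) ℝ → ℂ) (κ : ℂ) (f0 f1 : G ℚ → ℂ)
    (hf0 : ∀ h : G ℚ, f0 h = κ * pureQ298 T f₀ F0 h)
    (hf1 : ∀ h : G ℚ, f1 h = κ * pureQ298 T f₀ F1 h) :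
    (fun x => f0 x + f1 x) = fun h => κ * pureQ298 T f₀ (fun g => F0 g + F1 g) h := by
  funext h
  rw [hf0 h, hf1 h, pureQ_add298]
  ring

variable {F : Type} [Field F] [NumberField F]

/-- **THE TOP OF THE FIRST CUT over `ℚ`**: global matching from local matching. -/
theorem globMatchQ_of298 (hι : IotaQC298 F) (hU : UnfoldGC298 ℚ) (hU' : UnfoldC305 F)
    (hTc : TorCommC305 ℚ) (hTc' : TorCommC305 F)
    (hRep : TwistRepC305 F) (hEll : EllRegC305 ℚ F) (hHaar : TorHaarC305 ℚ)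
    (hMeas : TorMeasQC298 F) (hComp : TorCompQC298 F) (hCut : CutIntQC298 F) :
    GlobMatchQC298 F := by
  intro hF D hD hcyc hl μr hμr μc hμc T₀ hram n m hlev
  obtain ⟨ι, hιD⟩ := hι hF D hD hcyc hl
  obtain ⟨κ₀, hκ₀, hC⟩ := hCut hF D hD hcyc hl ι hιD μr hμr μc hμc T₀ hram n m hlev
  have hl0 : ((D.l : ℕ) : ℂ) ≠ 0 := by
    exact_mod_cast hcyc.prime.ne_zero
  refine ⟨κ₀ / (D.l : ℂ), div_ne_zero hκ₀ hl0, ?_⟩
  intro T T' hTT hT' φ₀ Φ f₀ F0 F1 hloc φ' f0 f1 hφ' hf0 hf1 htφ' hc0 hs0 hc1 hs1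
  obtain ⟨hnorm, hnon⟩ := hC T T' hTT hT' φ₀ Φ f₀ F0 F1 hloc
  have eφ' : φ' = pure305 T' φ₀ Φ := funext hφ'
  have ef : (fun x => f0 x + f1 x)
      = fun h => κ₀ / (D.l : ℂ) * pureQ298 T f₀ (fun g => F0 g + F1 g) h :=
    sum_eq_pureQ298 T f₀ F0 F1 _ f0 f1 hf0 hf1
  have hκ : κ₀ / (D.l : ℂ) ≠ 0 := div_ne_zero hκ₀ hl0
  have hcont : Continuous (fun x => f0 x + f1 x) := hc0.add hc1
  have hsupp : HasCompactSupport (fun x => f0 x + f1 x) := hs0.add hs1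
  constructor
  · intro δ γ hγ hN Fδ Fγ hFδ hFγ
    obtain ⟨δ₁, Fδ₁, hN₁, hFδ₁, hint⟩ :=
      hRep D.R' hD.frame' D.s D.l D.k D.𝔑 hD.cyc hD.aut δ
        (Matrix.GeneralLinearGroup.map (algebraMap ℚ F) γ) hN Fδ hFδ
    rw [← hint φ']
    obtain ⟨μT, μT', hμT, hμT', hlink⟩ := hMeas hF D hD hcyc hl ι hιD δ₁ γ hγ hN₁
    obtain ⟨β', β, hβ', hβ, hCI⟩ := hnorm δ₁ γ hγ hN₁ μT μT' hμT hμT' hlink
    have hreg := hEll D hD γ hγ
    have e1 := hU' D.R' hD.frame' D.s D.l D.k D.𝔑 hD.cyc hD.aut δ₁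
      (by rw [hN₁]; exact hreg.1) φ' htφ' Fδ₁ hFδ₁
      (hTc' D.R' hD.frame' D.s D.l D.k D.𝔑 hD.cyc hD.aut δ₁ (by rw [hN₁]; exact hreg.1))
      μT' hμT' β' (by rw [eφ']; exact hβ')
    have e2 := hU D.R hD.frame (T5.AdelicAut.id ℚ) 1 ⊤ D.𝔫 T5.isCyclicOfDegree_id
      (T5.autPreserves_id D.𝔫 D.R.μ D.R.r) γ hreg.2 (fun x => f0 x + f1 x) hcont hsupp Fγ hFγ
      (hTc D.R hD.frame (T5.AdelicAut.id ℚ) 1 ⊤ D.𝔫 T5.isCyclicOfDegree_id
        (T5.autPreserves_id D.𝔫 D.R.μ D.R.r) γ hreg.2)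
      μT hμT β
      (by rw [ef, supp_const_mul305 _ _ hκ]; exact hβ)
    have e3 := hComp hF D hD hcyc hl ι hιD δ₁ γ hγ hN₁ Fδ₁ Fγ hFδ₁ hFγ μT μT' hμT hμT' hlink
    rw [e1, e2, e3, eφ', hCI, ef, cutInt_const_mul305, ENNReal.toReal_mul]
    simp only [ENNReal.toReal_natCast]
    push_cast
    field_simp
  · intro γ hγ hno Fγ hFγ
    obtain ⟨μT, hμT⟩ := hHaar (T5.AdelicAut.id ℚ) γ
    obtain ⟨β, hβ, hCI⟩ := hnon γ hγ hno μT hμT
    have hreg := hEll D hD γ hγ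
    have e2 := hU D.R hD.frame (T5.AdelicAut.id ℚ) 1 ⊤ D.𝔫 T5.isCyclicOfDegree_id
      (T5.autPreserves_id D.𝔫 D.R.μ D.R.r) γ hreg.2 (fun x => f0 x + f1 x) hcont hsupp Fγ hFγ
      (hTc D.R hD.frame (T5.AdelicAut.id ℚ) 1 ⊤ D.𝔫 T5.isCyclicOfDegree_id
        (T5.autPreserves_id D.𝔫 D.R.μ D.R.r) γ hreg.2)
      μT hμT β
      (by rw [ef, supp_const_mul305 _ _ hκ]; exact hβ)
    rw [e2, ef, cutInt_const_mul305, hCI]
    simp

end Fermat.Agent.LT.T7.MQ298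

end
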