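import Mathlib
import Fermat.Agent.LT.T7.H298.MatchQTop
import Fermat.Agent.LT.T7.H298.MatchQSpec2

/-!
# Row LT, tower T7, node T7.L2Q.1.H1 (registry rows 2464 / 2605, owner helper298):
# THE MATCHING THEOREM OVER `ℚ` -- FIRST CUT, the proved top, v2

OFF-MAIN.  Complete proof, nothing assumed.  The proof of `globMatchQ_of298` for the nodes of v2
(`MatchQSpec2.lean`: split clause for ONE enumeration).

    globMatchQ_of298b : IotaQC298 F → UnfoldGC298 ℚ → UnfoldC305 F → TorCommC305 ℚ →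
        TorCommC305 F → TwistRepC305 F → EllRegC305 ℚ F → TorHaarC305 ℚ → TorMeasQC298 F →
        TorCompQC298 F → CutIntQC298b F → GlobMatchQC298b F
-/

set_option autoImplicit false

open AutomorphicForm IsDedekindDomain NumberField MeasureTheory
open scoped ComplexConjugate

noncomputable section

namespace Fermat.Agent.LT.T7.MQ298

open Fermat.Agent.LT.H556 Fermat.Agent.LT.H556.A0 Fermat.Agent.LT.T7 Fermat.Agent.LT.T7.H305

attribute [local instance] Fermat.Agent.LT.T5.instMeasurableSpaceG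

variable {F : Type} [Field F] [NumberField F]

/-- **THE TOP OF THE FIRST CUT over `ℚ`, v2**: global matching from local matching (`LocHypQ298b`). -/
theorem globMatchQ_of298b (hι : IotaQC298 F) (hU : UnfoldGC298 ℚ) (hU' : UnfoldC305 F)
    (hTc : TorCommC305 ℚ) (hTc' : TorCommC305 F)
    (hRep : TwistRepC305 F) (hEll : EllRegC305 ℚ F) (hHaar : TorHaarC305 ℚ)
    (hMeas : TorMeasQC298 F) (hComp : TorCompQC298 F) (hCut : CutIntQC298b F) :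
    GlobMatchQC298b F := by
  intro hF D hD hcyc hl μr hμr μc hμc T₀ hram n m hlev
  obtain ⟨ι, hιD⟩ := hι hF D hD hcyc hl
  obtain ⟨κ₀, hκ₀, hC⟩ := hCut hF D hD hcyc hl ι hιD μr hμr μc hμc T₀ hram n m hlev
  have hl0 : ((D.l : ℕ) : ℂ) ≠ 0 := by
    exact_mod_cast hcyc.prime.ne_zero
  refine ⟨κ₀ / (D.l : ℂ), div_ne_zero hκ₀ hl0, ?_⟩
  intro T T' hTT hT' φ₀ Φ f₀ F0 F1 hloc φ' f0 f1 hφ' hf0 hf1 htφ' hc0 hs0 hc1 hs1
  obtain ⟨hnorm, hnon⟩ := hC T T' hTT hT' φ₀ Φ f₀ F0 F1 hloc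
  have eφ' : φ' = pure305 T' φ₀ Φ := funext hφ'
  have ef : (fun x => f0 x + f1 x)
      = fun h => κ₀ / (D.l : ℂ) * pureQ298 T f₀ (fun g => F0 g + F1 g) h :=
    sum_eq_pureQ298 T f₀ F0 F1 _ f0 f1 hf0 hf1
  have hκ : κ₀ / (D.l : ℂ) ≠ 0 := div_ne_zero hκ₀ hl0
  have hcont : Continuous (fun x => f0 x + f1 x) := hc0.add hc1
  have hsupp : HasCompactSupport (fun x => f0 x + f1 x) := hs0.add hs1
  constructor
  · intro δ γ hγ hN Fδ Fγ hFδ hFγ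
    obtain ⟨δ₁, Fδ₁, hN₁, hFδ₁, hint⟩ :=
      hRep D.R' hD.frame' D.s D.l D.k D.𝔑 hD.cyc hD.aut δ
        (Matrix.GeneralLinearGroup.map (algebraMap ℚ F) γ) hN Fδ hFδ
    rw [← hint φ']
    obtain ⟨μT, μT', hμT, hμT', hlink⟩ := hMeas hF D hD hcyc hl ι hιD δ₁ γ hγ hN₁
    obtain ⟨β', β, hβ', hβ, hCI⟩ := hnorm δ₁ γ hγ hN₁ μT μT' hμT hμT' hlink
    have hreg := hEll D hD γ hγ
    have e1 := hU' D.R' hD.frame' D.s D.l D.k D.𝔑 hD.cyc hD.aut δ₁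
      (by rw [hN₁]; exact hreg.1) φ' htφ' Fδ₁ hFδ₁
      (hTc' D.R' hD.frame' D.s D.l D.k D.𝔑 hD.cyc hD.aut δ₁ (by rw [hN₁]; exact hreg.1))
      μT' hμT' β' (by rw [eφ']; exact hβ')
    have e2 := hU D.R hD.frame (T5.AdelicAut.id ℚ) 1 ⊤ D.𝔫 T5.isCyclicOfDegree_id
      (T5.autPreserves_id D.𝔫 D.R.μ D.R.r) γ hreg.2 (fun x => f0 x + f1 x) hcont hsupp Fγ hFγ
      (hTc D.R hD.frame (T5.AdelicAut.id ℚ) 1 ⊤ D.𝔫 T5.isCyclicOfDegree_id
        (T5.autPreserves_id D.𝔫 D.R.μ D.R.r) γ hreg.2)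
      μT hμT β
      (by rw [ef, supp_const_mul305 _ _ hκ]; exact hβ)
    have e3 := hComp hF D hD hcyc hl ι hιD δ₁ γ hγ hN₁ Fδ₁ Fγ hFδ₁ hFγ μT μT' hμT hμT' hlink
    rw [e1, e2, e3, eφ', hCI, ef, cutInt_const_mul305, ENNReal.toReal_mul]
    simp only [ENNReal.toReal_natCast]
    push_cast
    field_simp
  · intro γ hγ hno Fγ hFγ
    obtain ⟨μT, hμT⟩ := hHaar (T5.AdelicAut.id ℚ) γ
    obtain ⟨β, hβ, hCI⟩ := hnon γ hγ hno μT hμT
    have hreg := hEll D hD γ hγ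
    have e2 := hU D.R hD.frame (T5.AdelicAut.id ℚ) 1 ⊤ D.𝔫 T5.isCyclicOfDegree_id
      (T5.autPreserves_id D.𝔫 D.R.μ D.R.r) γ hreg.2 (fun x => f0 x + f1 x) hcont hsupp Fγ hFγ
      (hTc D.R hD.frame (T5.AdelicAut.id ℚ) 1 ⊤ D.𝔫 T5.isCyclicOfDegree_id
        (T5.autPreserves_id D.𝔫 D.R.μ D.R.r) γ hreg.2)
      μT hμT β
      (by rw [ef, supp_const_mul305 _ _ hκ]; exact hβ)
    rw [e2, ef, cutInt_const_mul305, hCI]
    simp

end Fermat.Agent.LT.T7.MQ298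

end
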