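import Mathlib
import Fermat.Agent.LT.T7.H298.MatchQCutTop
import Fermat.Agent.LT.T7.H298.MatchQCut2
import Fermat.Agent.LT.T7.H298.MatchQTop2

/-!
# Row LT, tower T7, node Q2.7 `CutIntQC298b` (registry row 2605, owner helper298):
# SECOND CUT over `ℚ` -- the proved top, v2

OFF-MAIN.  Complete proof, nothing assumed.  The proof of `cutIntQC_of298` for the nodes of v2.

    cutIntQC_of298b : HasSqrtNegThree F → T6.T6Out → GoodSetC305 ℚ F → UnitMatchQC298b F →
        PureExtC305 ℚ → PureExtC305 F → LocMeasC305 → LocCutC305 → ArchMeasRC298 →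
        TorSplitQC298 → FactDownQC298 → FactUpQC298b F → LocVanC305 → ArchVanQC298 →
        NonNormLocQC298 F → CutIntQC298b F

    globMatchQ_of_cut298b : (the leaves of the two cuts) → GlobMatchQC298b F
-/

set_option autoImplicit false
set_option linter.unusedSectionVars false

open AutomorphicForm IsDedekindDomain NumberField MeasureTheory
open scoped ComplexConjugate

noncomputable section

namespace Fermat.Agent.LT.T7.MQ298

open Fermat.Agent.LT.H556 Fermat.Agent.LT.H556.A0 Fermat.Agent.LT.T7 Fermat.Agent.LT.T7.H305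

attribute [local instance] Fermat.Agent.LT.T5.instMeasurableSpaceG

variable {F : Type} [Field F] [NumberField F]

/-- **THE TOP OF THE SECOND CUT over `ℚ`, v2** (`LocHypQ298b`). -/
theorem cutIntQC_of298b (h3 : HasSqrtNegThree F) (hT6 : T6.T6Out) (hgood : GoodSetC305 ℚ F)
    (hunit : UnitMatchQC298b F) (hpure : PureExtC305 ℚ) (hpure' : PureExtC305 F)
    (hmeas : LocMeasC305) (hcut : LocCutC305) (harch : ArchMeasRC298)
    (htor : TorSplitQC298) (hdown : FactDownQC298) (hup : FactUpQC298b F)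
    (hvan : LocVanC305) (hvanr : ArchVanQC298) (hnn : NonNormLocQC298 F) :
    CutIntQC298b F := by
  classical
  intro hiq D hD hcyc hl2 ι hι μr hμr μc hμc T₀ hun n m hlev
  obtain ⟨cG, hcG, hdn⟩ := hdown D.R hD.frame μr hμr T₀ m hlev.1
  obtain ⟨cG', hcG', hupp⟩ := hup hT6 hiq D hD hcyc hl2 ι hι μr hμr μc hμc T₀ hun n m hlev
  have hloc : T6.InstLocalC := hT6.2.2.2.2.2.1
  refine ⟨((cG' / cG : ℝ) : ℂ), ?_, ?_⟩
  · exact_mod_cast (div_pos hcG' hcG).ne'
  intro T T' hT₀T hTT' φ₀ Φ f₀ F0 F1 hlocT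
  have hcont : Continuous (fun g => F0 g + F1 g) :=
    hlocT.arch_down0.cont.add hlocT.arch_down1.cont
  have hsupp : HasCompactSupport (fun g => F0 g + F1 g) :=
    hlocT.arch_down0.supp.add hlocT.arch_down1.supp
  constructor
  · -- the norms
    intro δ γ hell hN μT μT' hμT hμT' hlink
    obtain ⟨S, S', hTS, hSS', hgγ, hiδ⟩ := hgood γ δ hell T
    have hlocS := hunit hT6 hiq D hD hcyc hl2 μr hμr μc hμc T₀ hun n m hlev T S T' S' hT₀T hTS
      hTT' hSS' φ₀ Φ f₀ F0 F1 hlocT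
    obtain ⟨L, hL⟩ := exists_locDataQ298 hT6 hmeas hcut harch m hell
    obtain ⟨cT, hcT, hTC⟩ := htor γ hell μT hμT L hL.tor hL.torr
    obtain ⟨hβ, hval⟩ := hdn S (hT₀T.trans hTS) (ext305 T f₀) (fun g => F0 g + F1 g)
      hlocS.inv_down hcont hsupp γ hell hgγ μT hμT L cT hL hcT hTC
    obtain ⟨β', hβ', hval'⟩ := hupp S S' (hT₀T.trans hTS) hSS' (ext305 T' φ₀) Φ (ext305 T f₀)
      F0 F1 hlocS δ γ hell hN hgγ hiδ μT μT' hμT hμT' hlink L cT hL hcT hTC
    rw [pureQ_ext_fun298 hpure hTS] at hβ hval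
    rw [pure_ext_fun305 hpure' (over_mono305 hTS hTT' hSS')] at hβ' hval'
    refine ⟨β', prodCutQ298 S cT L, hβ', hβ, ?_⟩
    have h1 : cG ≠ 0 := hcG.ne'
    have h2 : cT ≠ 0 := hcT.ne'
    have h4 : cG' / cT = cG' / cG * (cG / cT) := by field_simp
    rw [hval', hval, ← mul_assoc, ← Complex.ofReal_mul, ← h4]
  · -- the elements which are not norms
    intro γ hell hnot μT hμT
    rcases hnn hT6 hiq h3 D hD hcyc hl2 γ hell hnot with
      ⟨v, w, e, i, sw, hvw, huniq, hi, hsw, hext, hnorm⟩ | hreal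
    · -- a finite place
      obtain ⟨S, S', hTS, hSS', hgγ, -⟩ := hgood γ 1 hell (insert v T)
      have hTS' : T ⊆ S := (Finset.subset_insert v T).trans hTS
      have hvS : v ∈ S := hTS (Finset.mem_insert_self v T)
      have hlocS := hunit hT6 hiq D hD hcyc hl2 μr hμr μc hμc T₀ hun n m hlev T S T' S' hT₀T
        hTS' hTT' hSS' φ₀ Φ f₀ F0 F1 hlocT
      obtain ⟨L, hL⟩ := exists_locDataQ298 hT6 hmeas hcut harch m hell
      obtain ⟨cT, hcT, hTC⟩ := htor γ hell μT hμT L hL.tor hL.torr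
      obtain ⟨hβ, hval⟩ := hdn S (hT₀T.trans hTS') (ext305 T f₀) (fun g => F0 g + F1 g)
        hlocS.inv_down hcont hsupp γ hell hgγ μT hμT L cT hL hcT hTC
      rw [pureQ_ext_fun298 hpure hTS'] at hβ hval
      refine ⟨prodCutQ298 S cT L, hβ, ?_⟩
      rw [hval]
      have hzero : locInt305 (L.μv v) (L.βv v) (ext305 T f₀ v) (locG305 v γ) = 0 := by
        refine hvan hT6 (v.adicCompletion ℚ) _ (hloc ℚ v) (m v) (ext305 T f₀ v)
          (hlocS.inv_down v hvS).1 (hlocS.inv_down v hvS).2 (locG305 v γ) (isReg_locG305 hell v)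
          ?_ (L.μv v) (hL.haar v) (L.μt v) (hL.tor v) (L.βv v) (hL.cut v)
        intro c' hc'
        exact ((hlocS.inert v hvS w hvw huniq e i sw hi hsw hext).2 (locG305 v γ) c'
          (isReg_locG305 hell v) hnorm hc')
      have hfact : factValQ298 D.R.r S L (ext305 T f₀) μr (fun g => F0 g + F1 g) = 0 := by
        unfold factValQ298
        rw [Finset.prod_eq_zero hvS hzero]
        simp
      rw [hfact, mul_zero]
    · -- the real place
      obtain ⟨S, S', hTS, hSS', hgγ, -⟩ := hgood γ 1 hell T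
      have hlocS := hunit hT6 hiq D hD hcyc hl2 μr hμr μc hμc T₀ hun n m hlev T S T' S' hT₀T
        hTS hTT' hSS' φ₀ Φ f₀ F0 F1 hlocT
      obtain ⟨L, hL⟩ := exists_locDataQ298 hT6 hmeas hcut harch m hell
      obtain ⟨cT, hcT, hTC⟩ := htor γ hell μT hμT L hL.tor hL.torr
      obtain ⟨hβ, hval⟩ := hdn S (hT₀T.trans hTS) (ext305 T f₀) (fun g => F0 g + F1 g)
        hlocS.inv_down hcont hsupp γ hell hgγ μT hμT L cT hL hcT hTC
      rw [pureQ_ext_fun298 hpure hTS] at hβ hval
      refine ⟨prodCutQ298 S cT L, hβ, ?_⟩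
      rw [hval]
      obtain ⟨w₀⟩ : Nonempty (InfinitePlace F) := inferInstance
      have hzero : ∀ j : ℤ,
          locInt305 μr L.βr (fun g => F0 g + F1 g) (reGLQ298 (T5.ratG γ * D.R.r ^ j)) = 0 :=
        fun j => hvanr D.R hD.frame μr μc (Φ w₀) (fun g => F0 g + F1 g) (hlocT.arch w₀) γ hell
          hreal L.μtr L.βr hL.torr hL.cutr j
      have hfact : factValQ298 D.R.r S L (ext305 T f₀) μr (fun g => F0 g + F1 g) = 0 := by
        unfold factValQ298
        simp only [hzero, mul_zero, tsum_zero]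
      rw [hfact, mul_zero]

/-- **THE MATCHING THEOREM OVER `ℚ`, v2, FROM THE LEAVES OF THE TWO CUTS.** -/
theorem globMatchQ_of_cut298b (h3 : HasSqrtNegThree F) (hT6 : T6.T6Out)
    (hι : IotaQC298 F) (hU : UnfoldGC298 ℚ) (hU' : UnfoldC305 F)
    (hTc : TorCommC305 ℚ) (hTc' : TorCommC305 F)
    (hRep : TwistRepC305 F) (hEll : EllRegC305 ℚ F) (hHaar : TorHaarC305 ℚ)
    (hMeas : TorMeasQC298 F) (hComp : TorCompQC298 F)
    (hgood : GoodSetC305 ℚ F)
    (hunit : UnitMatchQC298b F) (hpure : PureExtC305 ℚ) (hpure' : PureExtC305 F)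
    (hmeas : LocMeasC305) (hcut : LocCutC305) (harch : ArchMeasRC298)
    (htor : TorSplitQC298) (hdown : FactDownQC298) (hup : FactUpQC298b F)
    (hvan : LocVanC305) (hvanr : ArchVanQC298) (hnn : NonNormLocQC298 F) :
    GlobMatchQC298b F :=
  globMatchQ_of298b hι hU hU' hTc hTc' hRep hEll hHaar hMeas hComp
    (cutIntQC_of298b h3 hT6 hgood hunit hpure hpure' hmeas hcut harch htor hdown hup hvan
      hvanr hnn)

end Fermat.Agent.LT.T7.MQ298

end
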