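import Mathlib
import Fermat.Agent.LT.T7.H732.SupplyQGeoSpec
import Fermat.Agent.LT.T7.H298.MatchQTop

/-!
# Row LT, tower T7, node T7.L2Q.1.H1 `GlobQC732` (registry row 2464, owner helper298):
# THE RELATION OF RECORD `MtQ298` and the node `H732.GlobQC732 F (MtQ298 F)` -- PROVED

OFF-MAIN.  Complete proofs, nothing assumed.  ADDITIVE.

    globQC298        : H732.GlobQC732 F (MtQ298 F)                         (UNCONDITIONAL)
    mtQ_intro298     : (matching constant `κ` + locally matched components) → MtQ298 F B 𝔫 φ' f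
    exists_const298  : GlobMatchQC298 F → IsImagQuad F → IsL2QBase962 Φ B → 𝔫 ≠ ⊥ → (Haar, T₀,
                         levels) → ∃ κ ≠ 0, IsMatchConstQ298 F (B.comp 𝔫) μr μc T₀ n m κ
    isCompData_comp298, isCycExt_of_imagQuad298 (bookkeeping)

## The relation of record

`MtQ298 F B 𝔫 φ' f`: "`φ'` and the pair `f w0`, `f w1` are LOCALLY MATCHED PURE TENSORS, scaled
by a MATCHING CONSTANT": there are Haar measures `μr`, `μc`, a base set `T₀`, local levels
`n`, `m`, a constant `κ` with `IsMatchConstQ298 F (B.comp 𝔫) μr μc T₀ n m κ`, a set `T ⊇ T₀` and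
locally matched components (`LocHypQ298`) such that

    φ' = pure305 T' φ₀ Φ,   f w0 = κ · pureQ298 T f₀ F0,   f w1 = κ · pureQ298 T f₀ F1.

With this relation the node `GlobQC732` is the definition of a matching constant
(`globQC298`), and THE MATCHING THEOREM `GlobMatchQC298 F` (first cut: `MatchQSpec.lean`,
`MatchQTop.lean`) is what the construction (`H732.ConstrQ60C732` / `ConstrQRC732`, row 2465)
uses to obtain `κ ≠ 0`: `exists_const298`, then `mtQ_intro298` for every member of the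
families (the constant depends on the level, the Haar measures and the base set only, NOT on
`T`, the word, `k`, `m`).
-/

set_option autoImplicit false

open AutomorphicForm IsDedekindDomain NumberField MeasureTheory
open scoped ComplexConjugate

noncomputable section

namespace Fermat.Agent.LT.T7.MQ298

open Fermat.Agent.LT.H556 Fermat.Agent.LT.H556.A0 Fermat.Agent.LT.T7 Fermat.Agent.LT.T7.H305
  Fermat.Agent.LT.T7.L2Q Fermat.Agent.LT.T7.H893 Fermat.Agent.LT.T7.H962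

attribute [local instance] Fermat.Agent.LT.T5.instMeasurableSpaceG

variable (F : Type) [Field F] [NumberField F]

/-- **THE RELATION OF RECORD** of the quadratic step (see the header). -/
def MtQ298 : H732.MtRelQ732 F := fun B 𝔫 φ' f =>
  ∃ (μr : @Measure (GL (Fin 2) ℝ) (borel _)) (μc : @Measure (GL (Fin 2) ℂ) (borel _))
    (T₀ : Finset (HeightOneSpectrum (𝓞 ℚ)))
    (n : HeightOneSpectrum (𝓞 F) → ℕ) (m : HeightOneSpectrum (𝓞 ℚ) → ℕ) (κ : ℂ)
    (T : Finset (HeightOneSpectrum (𝓞 ℚ))) (T' : Finset (HeightOneSpectrum (𝓞 F)))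
    (φ₀ : ∀ w : HeightOneSpectrum (𝓞 F), GL (Fin 2) (w.adicCompletion F) → ℂ)
    (Φ : InfinitePlace F → GL (Fin 2) ℂ → ℂ)
    (f₀ : ∀ v : HeightOneSpectrum (𝓞 ℚ), GL (Fin 2) (v.adicCompletion ℚ) → ℂ)
    (F0 F1 : GL (Fin 2) ℝ → ℂ),
    IsMatchConstQ298 F (B.comp 𝔫) μr μc T₀ n m κ ∧ T₀ ⊆ T ∧ IsOver305 T T' ∧
      LocHypQ298 (B.comp 𝔫) μr μc T n m φ₀ Φ f₀ F0 F1 ∧
      (∀ h : G F, φ' h = pure305 T' φ₀ Φ h) ∧
      (∀ h : G ℚ, f QWt.w0 h = κ * pureQ298 T f₀ F0 h) ∧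
      (∀ h : G ℚ, f QWt.w1 h = κ * pureQ298 T f₀ F1 h)

variable {F}

/-- Introduction rule for the relation of record. -/
theorem mtQ_intro298 {B : L2QBase962 F} {𝔫 : Ideal (𝓞 ℚ)}
    {μr : @Measure (GL (Fin 2) ℝ) (borel _)} {μc : @Measure (GL (Fin 2) ℂ) (borel _)}
    {T₀ : Finset (HeightOneSpectrum (𝓞 ℚ))}
    {n : HeightOneSpectrum (𝓞 F) → ℕ} {m : HeightOneSpectrum (𝓞 ℚ) → ℕ} {κ : ℂ}
    (hκ : IsMatchConstQ298 F (B.comp 𝔫) μr μc T₀ n m κ)
    {T : Finset (HeightOneSpectrum (𝓞 ℚ))} {T' : Finset (HeightOneSpectrum (𝓞 F))}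
    (hTT : T₀ ⊆ T) (hT' : IsOver305 T T')
    {φ₀ : ∀ w : HeightOneSpectrum (𝓞 F), GL (Fin 2) (w.adicCompletion F) → ℂ}
    {Φ : InfinitePlace F → GL (Fin 2) ℂ → ℂ}
    {f₀ : ∀ v : HeightOneSpectrum (𝓞 ℚ), GL (Fin 2) (v.adicCompletion ℚ) → ℂ}
    {F0 F1 : GL (Fin 2) ℝ → ℂ}
    (hloc : LocHypQ298 (B.comp 𝔫) μr μc T n m φ₀ Φ f₀ F0 F1)
    {φ' : G F → ℂ} {f : QWt → G ℚ → ℂ}
    (hφ' : ∀ h : G F, φ' h = pure305 T' φ₀ Φ h)
    (hf0 : ∀ h : G ℚ, f QWt.w0 h = κ * pureQ298 T f₀ F0 h)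
    (hf1 : ∀ h : G ℚ, f QWt.w1 h = κ * pureQ298 T f₀ F1 h) :
    MtQ298 F B 𝔫 φ' f :=
  ⟨μr, μc, T₀, n, m, κ, T, T', φ₀, Φ, f₀, F0, F1, hκ, hTT, hT', hloc, hφ', hf0, hf1⟩

/-- **THE NODE T7.L2Q.1.H1 for the relation of record**, unconditional. -/
theorem globQC298 : H732.GlobQC732 F (MtQ298 F) := by
  intro _ _ Φ B _ 𝔫 _ φ' f hMt htφ' _ htf _
  obtain ⟨μr, μc, T₀, n, m, κ, T, T', φ₀, Φ₁, f₀, F0, F1, hκ, hTT, hT', hloc, hφ', hf0, hf1⟩ :=
    hMt
  exact hκ T T' hTT hT' φ₀ Φ₁ f₀ F0 F1 hloc φ' (f QWt.w0) (f QWt.w1) hφ' hf0 hf1 htφ'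
    (htf QWt.w0).cont (htf QWt.w0).supp (htf QWt.w1).cont (htf QWt.w1).supp

/-- The data of the comparison of a good common part are good. -/
theorem isCompData_comp298 {Φ : HeckeEigensystem F ℂ} {B : L2QBase962 F}
    (hB : IsL2QBase962 Φ B) {𝔫 : Ideal (𝓞 ℚ)} (h𝔫 : 𝔫 ≠ ⊥) : IsCompData (B.comp 𝔫) where
  cyc := hB.cyc
  base := hB.base
  level_ne := h𝔫
  level := rfl
  frame := hB.frame
  frame' := hB.frame'
  aut := hB.aut 𝔫

/-- An imaginary quadratic field is a cyclic extension of `ℚ` of degree `2`. -/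
theorem isCycExt_of_imagQuad298 (hF : IsImagQuad F) : IsCycExt ℚ F 2 := by
  classical
  have hrank : Module.finrank ℚ F = 2 := by
    have h := NumberField.InfinitePlace.card_add_two_mul_card_eq_rank F
    have hc : Nat.card {w : InfinitePlace F // w.IsComplex} = 1 := by
      rw [Nat.card_congr (Equiv.subtypeUnivEquiv hF.2)]
      exact hF.1
    have hr : Nat.card {w : InfinitePlace F // w.IsReal} = 0 := by
      have : IsEmpty {w : InfinitePlace F // w.IsReal} :=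
        ⟨fun w => (NumberField.InfinitePlace.not_isReal_iff_isComplex.mpr (hF.2 w.1)) w.2⟩
      exact Nat.card_of_isEmpty
    rw [Nat.card_eq_fintype_card] at hc hr
    have hc' : NumberField.InfinitePlace.nrComplexPlaces F = 1 := by
      rw [← hc]
    have hr' : NumberField.InfinitePlace.nrRealPlaces F = 0 := by
      rw [← hr]
    rw [hc', hr'] at h
    omega
  have : Algebra.IsQuadraticExtension ℚ F := ⟨hrank⟩
  exact ⟨Nat.prime_two, inferInstance, hrank⟩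

/-- **The matching theorem delivers a matching constant** for every good common part and every
level (input of the construction). -/
theorem exists_const298 (hG : GlobMatchQC298 F) (hF : IsImagQuad F)
    {Φ : HeckeEigensystem F ℂ} {B : L2QBase962 F} (hB : IsL2QBase962 Φ B)
    {𝔫 : Ideal (𝓞 ℚ)} (h𝔫 : 𝔫 ≠ ⊥)
    (μr : @Measure (GL (Fin 2) ℝ) (borel _)) (hμr : @Measure.IsHaarMeasure _ _ _ (borel _) μr)
    (μc : @Measure (GL (Fin 2) ℂ) (borel _)) (hμc : @Measure.IsHaarMeasure _ _ _ (borel _) μc)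
    (T₀ : Finset (HeightOneSpectrum (𝓞 ℚ))) (hram : UnramOut305 (K' := F) T₀)
    (n : HeightOneSpectrum (𝓞 F) → ℕ) (m : HeightOneSpectrum (𝓞 ℚ) → ℕ)
    (hlev : IsLevelAt305 T₀ n m) :
    ∃ κ : ℂ, κ ≠ 0 ∧ IsMatchConstQ298 F (B.comp 𝔫) μr μc T₀ n m κ :=
  hG hF (B.comp 𝔫) (isCompData_comp298 hB h𝔫) (isCycExt_of_imagQuad298 hF) rfl μr hμr μc hμc
    T₀ hram n m hlev

/-! ## Appendix: the equation lemmas of the definitions of this file are realised HERE -/

theorem eqns_realised_matchQGlue298 : True := by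
  have _h0 := @MtQ298.eq_1
  have _g0 := @MtQ298.eq_def
  trivial

end Fermat.Agent.LT.T7.MQ298

end
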