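import Mathlib
import Fermat.Agent.LT.T7.H298.MatchQGlue
import Fermat.Agent.LT.T7.H298.MatchQTop2

/-!
# Row LT, tower T7, node T7.L2Q.1.H1 `GlobQC732` (registry row 2464, owner helper298):
# THE RELATION OF RECORD, v2 (`LocHypQ298b`: split clause for ONE enumeration) -- PROVED

OFF-MAIN.  Complete proofs, nothing assumed.  ADDITIVE (`MatchQGlue.lean` v1 unchanged).

    globQC298b        : H732.GlobQC732 F (MtQ298b F)                        (UNCONDITIONAL)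
    mtQ_intro298b     : (matching constant `κ` + locally matched components) → MtQ298b F B 𝔫 φ' f
    exists_const298b  : GlobMatchQC298b F → IsImagQuad F → IsL2QBase962 Φ B → 𝔫 ≠ ⊥ → (Haar,
                          T₀, levels) → ∃ κ ≠ 0, IsMatchConstQ298b F (B.comp 𝔫) μr μc T₀ n m κ
-/

set_option autoImplicit false

open AutomorphicForm IsDedekindDomain NumberField MeasureTheory
open scoped ComplexConjugate

noncomputable section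

namespace Fermat.Agent.LT.T7.MQ298

open Fermat.Agent.LT.H556 Fermat.Agent.LT.H556.A0 Fermat.Agent.LT.T7 Fermat.Agent.LT.T7.H305
  Fermat.Agent.LT.T7.L2Q Fermat.Agent.LT.T7.H893 Fermat.Agent.LT.T7.H962

attribute [local instance] Fermat.Agent.LT.T5.instMeasurableSpaceG

variable (F : Type) [Field F] [NumberField F]

/-- **THE RELATION OF RECORD of the quadratic step, v2** (`LocHypQ298b`). -/
def MtQ298b : H732.MtRelQ732 F := fun B 𝔫 φ' f =>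
  ∃ (μr : @Measure (GL (Fin 2) ℝ) (borel _)) (μc : @Measure (GL (Fin 2) ℂ) (borel _))
    (T₀ : Finset (HeightOneSpectrum (𝓞 ℚ)))
    (n : HeightOneSpectrum (𝓞 F) → ℕ) (m : HeightOneSpectrum (𝓞 ℚ) → ℕ) (κ : ℂ)
    (T : Finset (HeightOneSpectrum (𝓞 ℚ))) (T' : Finset (HeightOneSpectrum (𝓞 F)))
    (φ₀ : ∀ w : HeightOneSpectrum (𝓞 F), GL (Fin 2) (w.adicCompletion F) → ℂ)
    (Φ : InfinitePlace F → GL (Fin 2) ℂ → ℂ)
    (f₀ : ∀ v : HeightOneSpectrum (𝓞 ℚ), GL (Fin 2) (v.adicCompletion ℚ) → ℂ)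
    (F0 F1 : GL (Fin 2) ℝ → ℂ),
    IsMatchConstQ298b F (B.comp 𝔫) μr μc T₀ n m κ ∧ T₀ ⊆ T ∧ IsOver305 T T' ∧
      LocHypQ298b (B.comp 𝔫) μr μc T n m φ₀ Φ f₀ F0 F1 ∧
      (∀ h : G F, φ' h = pure305 T' φ₀ Φ h) ∧
      (∀ h : G ℚ, f QWt.w0 h = κ * pureQ298 T f₀ F0 h) ∧
      (∀ h : G ℚ, f QWt.w1 h = κ * pureQ298 T f₀ F1 h)

variable {F}

/-- Introduction rule for the relation of record. -/
theorem mtQ_intro298b {B : L2QBase962 F} {𝔫 : Ideal (𝓞 ℚ)}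
    {μr : @Measure (GL (Fin 2) ℝ) (borel _)} {μc : @Measure (GL (Fin 2) ℂ) (borel _)}
    {T₀ : Finset (HeightOneSpectrum (𝓞 ℚ))}
    {n : HeightOneSpectrum (𝓞 F) → ℕ} {m : HeightOneSpectrum (𝓞 ℚ) → ℕ} {κ : ℂ}
    (hκ : IsMatchConstQ298b F (B.comp 𝔫) μr μc T₀ n m κ)
    {T : Finset (HeightOneSpectrum (𝓞 ℚ))} {T' : Finset (HeightOneSpectrum (𝓞 F))}
    (hTT : T₀ ⊆ T) (hT' : IsOver305 T T')
    {φ₀ : ∀ w : HeightOneSpectrum (𝓞 F), GL (Fin 2) (w.adicCompletion F) → ℂ}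
    {Φ : InfinitePlace F → GL (Fin 2) ℂ → ℂ}
    {f₀ : ∀ v : HeightOneSpectrum (𝓞 ℚ), GL (Fin 2) (v.adicCompletion ℚ) → ℂ}
    {F0 F1 : GL (Fin 2) ℝ → ℂ}
    (hloc : LocHypQ298b (B.comp 𝔫) μr μc T n m φ₀ Φ f₀ F0 F1)
    {φ' : G F → ℂ} {f : QWt → G ℚ → ℂ}
    (hφ' : ∀ h : G F, φ' h = pure305 T' φ₀ Φ h)
    (hf0 : ∀ h : G ℚ, f QWt.w0 h = κ * pureQ298 T f₀ F0 h)
    (hf1 : ∀ h : G ℚ, f QWt.w1 h = κ * pureQ298 T f₀ F1 h) :
    MtQ298b F B 𝔫 φ' f :=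
  ⟨μr, μc, T₀, n, m, κ, T, T', φ₀, Φ, f₀, F0, F1, hκ, hTT, hT', hloc, hφ', hf0, hf1⟩

/-- **THE NODE T7.L2Q.1.H1 for the relation of record**, unconditional. -/
theorem globQC298b : H732.GlobQC732 F (MtQ298b F) := by
  intro _ _ Φ B _ 𝔫 _ φ' f hMt htφ' _ htf _
  obtain ⟨μr, μc, T₀, n, m, κ, T, T', φ₀, Φ₁, f₀, F0, F1, hκ, hTT, hT', hloc, hφ', hf0, hf1⟩ :=
    hMt
  exact hκ T T' hTT hT' φ₀ Φ₁ f₀ F0 F1 hloc φ' (f QWt.w0) (f QWt.w1) hφ' hf0 hf1 htφ'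
    (htf QWt.w0).cont (htf QWt.w0).supp (htf QWt.w1).cont (htf QWt.w1).supp

/-- **The matching theorem delivers a matching constant** for every good common part and every
level (input of the construction). -/
theorem exists_const298b (hG : GlobMatchQC298b F) (hF : IsImagQuad F)
    {Φ : HeckeEigensystem F ℂ} {B : L2QBase962 F} (hB : IsL2QBase962 Φ B)
    {𝔫 : Ideal (𝓞 ℚ)} (h𝔫 : 𝔫 ≠ ⊥)
    (μr : @Measure (GL (Fin 2) ℝ) (borel _)) (hμr : @Measure.IsHaarMeasure _ _ _ (borel _) μr)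
    (μc : @Measure (GL (Fin 2) ℂ) (borel _)) (hμc : @Measure.IsHaarMeasure _ _ _ (borel _) μc)
    (T₀ : Finset (HeightOneSpectrum (𝓞 ℚ))) (hram : UnramOut305 (K' := F) T₀)
    (n : HeightOneSpectrum (𝓞 F) → ℕ) (m : HeightOneSpectrum (𝓞 ℚ) → ℕ)
    (hlev : IsLevelAt305 T₀ n m) :
    ∃ κ : ℂ, κ ≠ 0 ∧ IsMatchConstQ298b F (B.comp 𝔫) μr μc T₀ n m κ :=
  hG hF (B.comp 𝔫) (isCompData_comp298 hB h𝔫) (isCycExt_of_imagQuad298 hF) rfl μr hμr μc hμc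
    T₀ hram n m hlev

/-! ## Appendix: the equation lemmas of the definitions of this file are realised HERE -/

theorem eqns_realised_matchQGlue298b : True := by
  have _h0 := @MtQ298b.eq_1
  have _g0 := @MtQ298b.eq_def
  have _u0 := @MtQ298b.eq_unfold
  trivial

end Fermat.Agent.LT.T7.MQ298

end
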