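import Mathlib
import Fermat.Agent.LT.T7.H298.MatchQCutTop2
import Fermat.Agent.LT.T7.H298.MatchQGlue2
import Fermat.Agent.LT.T7.H627.Unfold305
import Fermat.Agent.LT.T7.H233.TorComm
import Fermat.Agent.LT.T7.H655.TwistRep
import Fermat.Agent.LT.T7.H277.EllReg
import Fermat.Agent.LT.T7.H149.TorHaar
import Fermat.Agent.LT.T7.H385.LocVan
import Fermat.Agent.LT.T7.H729.LocMeas
import Fermat.Agent.LT.T7.H543.LocCut
import Fermat.Agent.LT.T7.H82.PureExt
import Fermat.Agent.LT.T7.H532.GoodSet
import Fermat.Agent.LT.T7.H139.IotaQ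
import Fermat.Agent.LT.T7.H115.UnfoldG
import Fermat.Agent.LT.T7.H776.TorMeasQ
import Fermat.Agent.LT.T7.H379.TorCompQ
import Fermat.Agent.LT.T7.H729.ArchMeasR
import Fermat.Agent.LT.T7.H409.ArchVanQ
import Fermat.Agent.LT.T7.H984.NonNormLocQ
import Fermat.Agent.LT.T7.H925.TorSplitQ
import Fermat.Agent.LT.T7.H767.UnitMatchQ2

/-!
# Row LT, tower T7, node T7.L2Q.1.H1 (registry rows 2464 / 2605, owner helper298):
# THE MATCHING THEOREM OVER `ℚ` -- INTEGRATION v2 (for the nodes of v2)

OFF-MAIN.  Complete proofs, nothing assumed.  ADDITIVE.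

CLOSED leaves (vendored byte-identical, ONE closure with the two cuts):

* cubic leaves reused verbatim: `UnfoldC305` helper627, `TorCommC305` helper233, `TwistRepC305`
  helper655, `EllRegC305` helper277, `TorHaarC305` helper149, `GoodSetC305` helper532,
  `PureExtC305` helper82, `LocMeasC305` helper729, `LocCutC305` helper543, `LocVanC305`
  helper385 (the closure of `T7/H305/MatchClosed.lean`, helper305@320b34edb);
* first cut over `ℚ`: `IotaQC298` helper139, `UnfoldGC298` helper115, `TorMeasQC298` helper776,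
  `TorCompQC298` helper379;
* second cut over `ℚ`: `ArchMeasRC298` helper729, `ArchVanQC298` helper409, `NonNormLocQC298`
  helper984, `TorSplitQC298` helper925, `UnitMatchQC298b` helper767.

OPEN: `T6.T6Out` (closed by the tower T6, supplied by the master) and the TWO NODES
`FactDownQC298` (helper751, cut, all leaves closed) and `FactUpQC298b` (helper514 / helper1,
cut).

    cutIntQC_of_open298   : HasSqrtNegThree F → OpenMatchQ298 F → CutIntQC298b F
    globMatchQC_of_open298 : HasSqrtNegThree F → OpenMatchQ298 F → GlobMatchQC298b F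
    globMatchQC_of_nodes298 : HasSqrtNegThree F → T6.T6Out → FactDownQC298 → FactUpQC298b F
                                → GlobMatchQC298b F
-/

set_option autoImplicit false

open AutomorphicForm IsDedekindDomain NumberField MeasureTheory
open scoped ComplexConjugate

noncomputable section

namespace Fermat.Agent.LT.T7.MQ298

open Fermat.Agent.LT.H556 Fermat.Agent.LT.H556.A0 Fermat.Agent.LT.T7 Fermat.Agent.LT.T7.H305

attribute [local instance] Fermat.Agent.LT.T5.instMeasurableSpaceG

variable (F : Type) [Field F] [NumberField F]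

/-- **THE OPEN WALL of the matching theorem over `ℚ`** (integration v1). -/
structure OpenMatchQ298 : Prop where
  t6 : T6.T6Out
  unit : UnitMatchQC298b F
  nonNorm : NonNormLocQC298 F
  torSplit : TorSplitQC298
  factDown : FactDownQC298
  factUp : FactUpQC298b F

variable {F}

/-- The core node over `ℚ` from the open wall. -/
theorem cutIntQC_of_open298 (h3 : HasSqrtNegThree F) (h : OpenMatchQ298 F) : CutIntQC298b F :=
  cutIntQC_of298b h3 h.t6 (H532.goodSetC532 ℚ F) h.unit (H82.pureExtC82 ℚ) (H82.pureExtC82 F)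
    LocMeas729.locMeasC729 H543C.locCutC543 ArchMeasR729.archMeasRC729 h.torSplit h.factDown
    h.factUp H385.locVanC385 H409.archVanQC409 h.nonNorm

/-- **GLOBAL MATCHING FROM LOCAL MATCHING over `ℚ`, from the open wall.** -/
theorem globMatchQC_of_open298 (h3 : HasSqrtNegThree F) (h : OpenMatchQ298 F) :
    GlobMatchQC298b F :=
  globMatchQ_of298b (H139.iotaQC139 F) (H115.unfoldGC115 ℚ) (H627.unfoldC627 F)
    (H233.torCommC233 ℚ) (H233.torCommC233 F) (H655.twistRepC655 F) (H277.ellRegC277 ℚ F)
    (H149.torHaarC149 ℚ) (H776Q.torMeasQC776 F) (H379.torCompQC379 F)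
    (cutIntQC_of_open298 h3 h)

/-- **GLOBAL MATCHING FROM LOCAL MATCHING over `ℚ`, from the TWO NODES** (integration v2). -/
theorem globMatchQC_of_nodes298 (h3 : HasSqrtNegThree F) (hT6 : T6.T6Out)
    (hdown : FactDownQC298) (hup : FactUpQC298b F) : GlobMatchQC298b F :=
  globMatchQC_of_open298 h3
    ⟨hT6, H767.unitMatchQC767b F, H984.nonNormLocQC984 F, H925.TorSplit.torSplitQC925, hdown,
      hup⟩

end Fermat.Agent.LT.T7.MQ298

end
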