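import Mathlib
import Fermat.Agent.LT.T7.H298.MatchQClosed
import Fermat.Agent.LT.T7.H298.FactDownQClosed

/-!
# Row LT, tower T7, node T7.L2Q.1.H1 (registry rows 2464 / 2605, owner helper298):
# THE MATCHING THEOREM OVER `ℚ` -- INTEGRATION v3: ONE OPEN NODE

OFF-MAIN.  Complete proofs, nothing assumed.  ADDITIVE.

`FactDownQC298` is CLOSED (`factDownQC_closed298`, cut and tops of helper751, fourteen leaves).
OPEN: `T6.T6Out` (closed by the tower T6, supplied by the master) and the ONE NODE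
`FactUpQC298b F` (helper514, cut; node `UpFactQC514` helper1).

    globMatchQC_of_factUp298 : HasSqrtNegThree F → T6.T6Out → FactUpQC298b F → GlobMatchQC298b F
    exists_const_of_factUp298 : … → ∃ κ ≠ 0, IsMatchConstQ298b F (B.comp 𝔫) μr μc T₀ n m κ
-/

set_option autoImplicit false

open AutomorphicForm IsDedekindDomain NumberField MeasureTheory
open scoped ComplexConjugate

noncomputable section

namespace Fermat.Agent.LT.T7.MQ298

open Fermat.Agent.LT.H556 Fermat.Agent.LT.H556.A0 Fermat.Agent.LT.T7 Fermat.Agent.LT.T7.H305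
  Fermat.Agent.LT.T7.L2Q Fermat.Agent.LT.T7.H893 Fermat.Agent.LT.T7.H962

attribute [local instance] Fermat.Agent.LT.T5.instMeasurableSpaceG

variable {F : Type} [Field F] [NumberField F]

/-- **THE MATCHING THEOREM OVER `ℚ` (v2 form) FROM THE ONE OPEN NODE.** -/
theorem globMatchQC_of_factUp298 (h3 : HasSqrtNegThree F) (hT6 : T6.T6Out)
    (hup : FactUpQC298b F) : GlobMatchQC298b F :=
  globMatchQC_of_nodes298 h3 hT6 factDownQC_closed298 hup

/-- The matching constant of a good common part, from the one open node. -/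
theorem exists_const_of_factUp298 (h3 : HasSqrtNegThree F) (hT6 : T6.T6Out)
    (hup : FactUpQC298b F) (hF : IsImagQuad F)
    {Φ : HeckeEigensystem F ℂ} {B : L2QBase962 F} (hB : IsL2QBase962 Φ B)
    {𝔫 : Ideal (𝓞 ℚ)} (h𝔫 : 𝔫 ≠ ⊥)
    (μr : @Measure (GL (Fin 2) ℝ) (borel _)) (hμr : @Measure.IsHaarMeasure _ _ _ (borel _) μr)
    (μc : @Measure (GL (Fin 2) ℂ) (borel _)) (hμc : @Measure.IsHaarMeasure _ _ _ (borel _) μc)
    (T₀ : Finset (HeightOneSpectrum (𝓞 ℚ))) (hram : UnramOut305 (K' := F) T₀)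
    (n : HeightOneSpectrum (𝓞 F) → ℕ) (m : HeightOneSpectrum (𝓞 ℚ) → ℕ)
    (hlev : IsLevelAt305 T₀ n m) :
    ∃ κ : ℂ, κ ≠ 0 ∧ IsMatchConstQ298b F (B.comp 𝔫) μr μc T₀ n m κ :=
  exists_const298b (globMatchQC_of_factUp298 h3 hT6 hup) hF hB h𝔫 μr hμr μc hμc T₀ hram n m hlev

end Fermat.Agent.LT.T7.MQ298

end
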