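import Mathlib
import Fermat.Agent.LT.T7.H298.MatchQWall
import Fermat.Agent.LT.T7.H514.FactUpQClosed2
import Fermat.Agent.LT.T7.H1U.FactIntUpQTop
import Fermat.Agent.LT.T7.H159.HaarSplit305
import Fermat.Agent.LT.T7.H864.UpDatQClosed
import Fermat.Agent.LT.T7.H42.OverSetQ
import Fermat.Agent.LT.T7.H355.PtFactUpQ

/-!
# Row LT, tower T7, node T7.L2Q.1.H1 (registry rows 2464 / 2605, owner helper298):
# THE MATCHING THEOREM OVER `ℚ` -- INTEGRATION v4: the wall of the node upstairs

OFF-MAIN.  Complete proofs, nothing assumed.  ADDITIVE.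

Plugged (byte-identical, ONE closure): `FUQ514.factUpQC298b_of_up514` (helper514@b4e9e24d5: the
node `FactUpQC298b` from the three parts of the cut of helper1, all local leaves closed),
`H1U.factIntUpQC_of_H1U` (helper1@50eb7ee1f: Part B from its five leaves), `haarSplitC159`
(helper159), `outOpenC729`, `compContC409`, `haarSigmaC505`; `upDatExistsQC864` (helper864), `overSetQC42`
(helper42), `ptFactUpQC355` (helper355).

    globMatchQC_of_up298 : HasSqrtNegThree F → T6.T6Out → H1U.UpDatExistsQC F →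
        H1U.CutOnUpQC F → H1U.FactIntUpQC F → GlobMatchQC298b F
    globMatchQC_of_upLeaves298 : HasSqrtNegThree F → T6.T6Out → H1U.UpDatExistsQC F →
        H1U.CutOnUpQC F → H1U.OverSetQC F → H1U.PtFactUpQC F → H1U.RayFinUpQC F →
        H1U.ArchIntblUpQC F → H1U.FinPartUpQC F → GlobMatchQC298b F
    globMatchQC_of_four298 : HasSqrtNegThree F → T6.T6Out → H1U.CutOnUpQC F →
        H1U.RayFinUpQC F → H1U.ArchIntblUpQC F → H1U.FinPartUpQC F → GlobMatchQC298b F
-/

set_option autoImplicit false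

open AutomorphicForm IsDedekindDomain NumberField MeasureTheory
open scoped ComplexConjugate

noncomputable section

namespace Fermat.Agent.LT.T7.MQ298

open Fermat.Agent.LT.H556 Fermat.Agent.LT.H556.A0 Fermat.Agent.LT.T7 Fermat.Agent.LT.T7.H305

attribute [local instance] Fermat.Agent.LT.T5.instMeasurableSpaceG

variable {F : Type} [Field F] [NumberField F]

/-- The matching theorem over `ℚ` from the three parts of the cut of the node upstairs. -/
theorem globMatchQC_of_up298 (h3 : HasSqrtNegThree F) (hT6 : T6.T6Out)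
    (hE : H1U.UpDatExistsQC F) (hA : H1U.CutOnUpQC F) (hB : H1U.FactIntUpQC F) :
    GlobMatchQC298b F :=
  globMatchQC_of_factUp298 h3 hT6 (FUQ514.factUpQC298b_of_up514 hE hA hB)

/-- The matching theorem over `ℚ` from the open leaves of the node upstairs. -/
theorem globMatchQC_of_upLeaves298 (h3 : HasSqrtNegThree F) (hT6 : T6.T6Out)
    (hE : H1U.UpDatExistsQC F) (hA : H1U.CutOnUpQC F) (hOS : H1U.OverSetQC F)
    (hPF : H1U.PtFactUpQC F) (hRF : H1U.RayFinUpQC F) (hAI : H1U.ArchIntblUpQC F)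
    (hFP : H1U.FinPartUpQC F) : GlobMatchQC298b F :=
  globMatchQC_of_up298 h3 hT6 hE hA
    (H1U.factIntUpQC_of_H1U (H159.haarSplitC159 F) (OutOpen729.outOpenC729 F)
      (H409.compContC409 (K := F)) (H505.haarSigmaC505 (K := F)) hOS hPF hRF hAI hFP)

/-- **THE MATCHING THEOREM OVER `ℚ` FROM THE FOUR OPEN ITEMS** (18:30Z): Part A upstairs
(`CutOnUpQC`, helper913) and the three open leaves of Part B (`RayFinUpQC`, `ArchIntblUpQC`,
`FinPartUpQC`). -/
theorem globMatchQC_of_four298 (h3 : HasSqrtNegThree F) (hT6 : T6.T6Out)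
    (hA : H1U.CutOnUpQC F) (hRF : H1U.RayFinUpQC F) (hAI : H1U.ArchIntblUpQC F)
    (hFP : H1U.FinPartUpQC F) : GlobMatchQC298b F :=
  globMatchQC_of_upLeaves298 h3 hT6 (H864.upDatExistsQC864 F) hA (H42.overSetQC42 F)
    (H355.ptFactUpQC355 (F := F)) hRF hAI hFP

end Fermat.Agent.LT.T7.MQ298

end
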