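import Mathlib
import Fermat.Agent.LT.T7.H298.MatchQWall2
import Fermat.Agent.LT.T7.H750.ArchIntblUpQ
import Fermat.Agent.LT.T7.H750.RayFinUpQ
import Fermat.Agent.LT.T7.H913.CutOnUpQTop
import Fermat.Agent.LT.T7.H941.SuppUpQ
import Fermat.Agent.LT.T7.H560.SuppOutUp
import Fermat.Agent.LT.T7.H16.UpLeaves

/-!
# Row LT, tower T7, node T7.L2Q.1.H1 (registry rows 2464 / 2605, owner helper298):
# THE MATCHING THEOREM OVER `ℚ` -- INTEGRATION v5: TWO OPEN ITEMS

OFF-MAIN.  Complete proofs, nothing assumed.  ADDITIVE.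

Plugged (byte-identical, ONE closure): `rayFinUpQC750`, `archIntblUpQC750` (helper750),
`H913.cutOnUpQC_of913` (helper913: Part A upstairs from its cut) with `suppOutUpC560`
(helper560), `suppUpQC941` (helper941), `torCommC233`, `ellRegC277`, `outOpenC729`,
`compContC409`, `isoContC340_16` (helper16).

OPEN: `T6.T6Out` (master) and the TWO items `H913.CutOnOutUpQC913 F` (mirror of the closed cubic
leaf `H340.CutOnOutUpC340`) and `H1U.FinPartUpQC F` (the finite places upstairs).

    globMatchQC_of_two298 : HasSqrtNegThree F → T6.T6Out → H913.CutOnOutUpQC913 F →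
        H1U.FinPartUpQC F → GlobMatchQC298b F
-/

set_option autoImplicit false

open AutomorphicForm IsDedekindDomain NumberField MeasureTheory
open scoped ComplexConjugate

noncomputable section

namespace Fermat.Agent.LT.T7.MQ298

open Fermat.Agent.LT.H556 Fermat.Agent.LT.H556.A0 Fermat.Agent.LT.T7 Fermat.Agent.LT.T7.H305

attribute [local instance] Fermat.Agent.LT.T5.instMeasurableSpaceG

variable {F : Type} [Field F] [NumberField F]

/-- Part A upstairs over `ℚ` from its one open node. -/
theorem cutOnUpQC_of_out298 (hCut : H913.CutOnOutUpQC913 F) : H1U.CutOnUpQC F :=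
  H913.cutOnUpQC_of913 (H560.suppOutUpC560 F) (H941.suppUpQC941 F) hCut (H233.torCommC233 F)
    (H277.ellRegC277 ℚ F) (OutOpen729.outOpenC729 F) (H409.compContC409 (K := F))
    H16.isoContC340_16

/-- **THE MATCHING THEOREM OVER `ℚ` FROM THE TWO OPEN ITEMS** (18:40Z). -/
theorem globMatchQC_of_two298 (h3 : HasSqrtNegThree F) (hT6 : T6.T6Out)
    (hCut : H913.CutOnOutUpQC913 F) (hFP : H1U.FinPartUpQC F) : GlobMatchQC298b F :=
  globMatchQC_of_four298 h3 hT6 (cutOnUpQC_of_out298 hCut) (H750.rayFinUpQC750 F)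
    (H750.archIntblUpQC750 F) hFP

end Fermat.Agent.LT.T7.MQ298

end
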