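import Mathlib
import Fermat.Agent.LT.T7.H298.MatchQWall3
import Fermat.Agent.LT.T7.H913.CutOnUpQClosed

/-!
# Row LT, tower T7, node T7.L2Q.1.H1 (registry rows 2464 / 2605, owner helper298):
# THE MATCHING THEOREM OVER `ℚ` -- INTEGRATION v6: ONE OPEN ITEM

OFF-MAIN.  Complete proofs, nothing assumed.  ADDITIVE.

Plugged (byte-identical, ONE closure): `H913.cutOnUpQC913` (helper913@ecadb40ea: Part A
upstairs CLOSED).

OPEN: `T6.T6Out` (master) and the ONE item `H1U.FinPartUpQC F` (the finite places upstairs,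
registry row 2861).

    globMatchQC_of_finPart298 : HasSqrtNegThree F → T6.T6Out → H1U.FinPartUpQC F →
        GlobMatchQC298b F
-/

set_option autoImplicit false

open AutomorphicForm IsDedekindDomain NumberField MeasureTheory
open scoped ComplexConjugate

noncomputable section

namespace Fermat.Agent.LT.T7.MQ298

open Fermat.Agent.LT.H556 Fermat.Agent.LT.H556.A0 Fermat.Agent.LT.T7 Fermat.Agent.LT.T7.H305

attribute [local instance] Fermat.Agent.LT.T5.instMeasurableSpaceG

variable {F : Type} [Field F] [NumberField F]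

/-- **THE MATCHING THEOREM OVER `ℚ` FROM THE ONE OPEN ITEM** (18:50Z). -/
theorem globMatchQC_of_finPart298 (h3 : HasSqrtNegThree F) (hT6 : T6.T6Out)
    (hFP : H1U.FinPartUpQC F) : GlobMatchQC298b F :=
  globMatchQC_of_four298 h3 hT6 (H913.cutOnUpQC913 F) (H750.rayFinUpQC750 F)
    (H750.archIntblUpQC750 F) hFP

end Fermat.Agent.LT.T7.MQ298

end
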