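import Mathlib
import Fermat.Agent.LT.T7.H298.MatchQWall4
import Fermat.Agent.LT.T7.H534.FinPartUpQ

/-!
# Row LT, tower T7, node T7.L2Q.1.H1 (registry rows 2464 / 2605, owner helper298):
# THE MATCHING THEOREM OVER `ℚ` -- CLOSED

OFF-MAIN.  Complete proofs, nothing assumed.  ADDITIVE.

    globMatchQC_closed298 : HasSqrtNegThree F → T6.T6Out → GlobMatchQC298b F
    cutIntQC_closed298    : HasSqrtNegThree F → T6.T6Out → CutIntQC298b F
    exists_const_closed298 : HasSqrtNegThree F → T6.T6Out → IsImagQuad F → IsL2QBase962 Φ B →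
        𝔫 ≠ ⊥ → (Haar measures, base set, levels) →
        ∃ κ ≠ 0, IsMatchConstQ298b F (B.comp 𝔫) μr μc T₀ n m κ

The ONLY hypotheses: `HasSqrtNegThree F` (`F = ℚ(√-3)`: the class field theory input
`T6.NormImageQC` is available for this field only) and `T6.T6Out` (the output of the tower T6,
closed by the tower; supplied by the master: `T6.top_closed`).

ALL leaves and nodes of the two cuts of helper298 and of the cuts of helper751 (`FactDownQC298`),
helper514 (`FactUpQC298b`), helper1 (`UpFactQC514`, `FactIntUpQC`), helper913 (`CutOnUpQC`),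
helper864 (`UpDatExistsQC`) are plugged byte-identical in ONE closure; the last one is
`FPU534.finPartUpQC534` (helper534@8953099fb, `H1U.FinPartUpQC F`).
-/

set_option autoImplicit false

open AutomorphicForm IsDedekindDomain NumberField MeasureTheory
open scoped ComplexConjugate

noncomputable section

namespace Fermat.Agent.LT.T7.MQ298

open Fermat.Agent.LT.H556 Fermat.Agent.LT.H556.A0 Fermat.Agent.LT.T7 Fermat.Agent.LT.T7.H305
  Fermat.Agent.LT.T7.L2Q Fermat.Agent.LT.T7.H893 Fermat.Agent.LT.T7.H962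

attribute [local instance] Fermat.Agent.LT.T5.instMeasurableSpaceG

variable {F : Type} [Field F] [NumberField F]

/-- **THE MATCHING THEOREM OVER `ℚ`, CLOSED** (v2 form: split clause for ONE enumeration). -/
theorem globMatchQC_closed298 (h3 : HasSqrtNegThree F) (hT6 : T6.T6Out) : GlobMatchQC298b F :=
  globMatchQC_of_finPart298 h3 hT6 (FPU534.finPartUpQC534 F)

/-- The node upstairs, closed. -/
theorem factUpQC_closed298 (hT6 : T6.T6Out) : FactUpQC298b F := by
  have _h := hT6
  exact FUQ514.factUpQC298b_of_up514 (H864.upDatExistsQC864 F) (H913.cutOnUpQC913 F)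
    (H1U.factIntUpQC_of_H1U (H159.haarSplitC159 F) (OutOpen729.outOpenC729 F)
      (H409.compContC409 (K := F)) (H505.haarSigmaC505 (K := F)) (H42.overSetQC42 F)
      (H355.ptFactUpQC355 (F := F)) (H750.rayFinUpQC750 F) (H750.archIntblUpQC750 F)
      (FPU534.finPartUpQC534 F))

/-- **THE CORE NODE OVER `ℚ`, CLOSED.** -/
theorem cutIntQC_closed298 (h3 : HasSqrtNegThree F) (hT6 : T6.T6Out) : CutIntQC298b F :=
  cutIntQC_of_open298 h3
    ⟨hT6, H767.unitMatchQC767b F, H984.nonNormLocQC984 F, H925.TorSplit.torSplitQC925,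
      factDownQC_closed298, factUpQC_closed298 hT6⟩

/-- **THE MATCHING CONSTANT of a good common part, CLOSED** (input of the construction). -/
theorem exists_const_closed298 (h3 : HasSqrtNegThree F) (hT6 : T6.T6Out) (hF : IsImagQuad F)
    {Φ : HeckeEigensystem F ℂ} {B : L2QBase962 F} (hB : IsL2QBase962 Φ B)
    {𝔫 : Ideal (𝓞 ℚ)} (h𝔫 : 𝔫 ≠ ⊥)
    (μr : @Measure (GL (Fin 2) ℝ) (borel _)) (hμr : @Measure.IsHaarMeasure _ _ _ (borel _) μr)
    (μc : @Measure (GL (Fin 2) ℂ) (borel _)) (hμc : @Measure.IsHaarMeasure _ _ _ (borel _) μc)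
    (T₀ : Finset (HeightOneSpectrum (𝓞 ℚ))) (hram : UnramOut305 (K' := F) T₀)
    (n : HeightOneSpectrum (𝓞 F) → ℕ) (m : HeightOneSpectrum (𝓞 ℚ) → ℕ)
    (hlev : IsLevelAt305 T₀ n m) :
    ∃ κ : ℂ, κ ≠ 0 ∧ IsMatchConstQ298b F (B.comp 𝔫) μr μc T₀ n m κ :=
  exists_const298b (globMatchQC_closed298 h3 hT6) hF hB h𝔫 μr hμr μc hμc T₀ hram n m hlev

/-- VERBATIM check. -/
example (h3 : HasSqrtNegThree F) (hT6 : Fermat.Agent.LT.T6.T6Out) :
    Fermat.Agent.LT.T7.MQ298.GlobMatchQC298b F := globMatchQC_closed298 h3 hT6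

end Fermat.Agent.LT.T7.MQ298

end
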